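/-
Programme JAC (S27 track, C4), chapter Tangent.  Owner: helper70.

**Unit-glued line diagrams.**  For a unit `u` of `R01`, `unitDiag u` is the line diagram
`R0 → R01 ← R1` whose second localisation map is `y ↦ u * y`.
* `unitDiagTensor`: `unitDiag u ⊗ unitDiag v ≅ unitDiag (u * v)`; `unitDiagOne`;
  hence `unitClass : R01ˣ →* Classes`.
* `unitDiag_iso_iff` : `unitDiag u ≅ unitDiag u'` iff `u' * v1 = v0 * u` for units `v0` of `R0`,
  `v1` of `R1`.
* `exists_iso_unitDiag` : a line diagram with free `M0`, `M1` is some `unitDiag u`.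
* `cartHomUnitDiag` : base change of `unitDiag u` along a morphism of families is
  `unitDiag (ψ01 u)`.
-/
import Mathlib
import Fermat.Agent.JAC.Core.Defs36
import Fermat.Agent.JAC.Core.Cart36
import Fermat.Agent.JAC.Grp.Diag33
import Fermat.Agent.JAC.Grp.Cart33

set_option autoImplicit false

universe u

open TensorProduct

namespace Fermat.Agent.JAC.Tangent.UnitDiag70

open Fermat.Agent.JAC.Core.Defs36 Fermat.Agent.JAC.Core.Cart36 Fermat.Agent.JAC.Grp.Diag33
  Fermat.Agent.JAC.Grp.Cart33 Fermat.Agent.JAC.Grp.LocTensor33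

variable {R0 R1 R01 : Type u} [CommRing R0] [CommRing R1] [CommRing R01]
  [Algebra R0 R01] [Algebra R1 R01] (t : R0) (s : R1)
  [IsLocalization.Away t R01] [IsLocalization.Away s R01]

/-- Multiplication by a unit of `R01` after the structure map of `R1`. -/
noncomputable def unitRho (w : R01ˣ) : R1 →ₗ[R1] R01 :=
  ((LinearEquiv.smulOfUnit w : R01 ≃ₗ[R01] R01).restrictScalars R1).toLinearMap ∘ₗ
    Algebra.linearMap R1 R01

@[simp]
theorem unitRho_apply (w : R01ˣ) (y : R1) :
    unitRho (R1 := R1) w y = (w : R01) * algebraMap R1 R01 y := rfl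

instance isLocalizedModule_unitRho (w : R01ˣ) :
    IsLocalizedModule (Submonoid.powers s) (unitRho (R1 := R1) w) := by
  have : IsLocalizedModule (Submonoid.powers s) (Algebra.linearMap R1 R01) :=
    (isLocalizedModule_iff_isLocalization).mpr inferInstance
  unfold unitRho
  infer_instance

omit [IsLocalization.Away s R01] in
theorem lid_tensorMap_unitRho (v w : R01ˣ) (x : R1 ⊗[R1] R1) :
    TensorProduct.lid R01 R01 (tensorMap R01 (unitRho (R1 := R1) v) (unitRho (R1 := R1) w) x) =
      unitRho (R1 := R1) (v * w) (TensorProduct.lid R1 R1 x) := by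
  induction x using TensorProduct.induction_on with
  | zero => simp
  | tmul a b =>
    rw [tensorMap_tmul, TensorProduct.lid_tmul, TensorProduct.lid_tmul, unitRho_apply,
      unitRho_apply, unitRho_apply, smul_eq_mul, smul_eq_mul, map_mul, Units.val_mul]
    ring
  | add x y hx hy => simp only [map_add, hx, hy]

/-- The line diagram `R0 → R01 ← R1` glued by the unit `w`. -/
noncomputable def unitDiag (w : R01ˣ) : LineDiag t s R01 where
  M0 := R0
  M1 := R1
  M01 := R01
  rho0 := Algebra.linearMap R0 R01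
  rho1 := unitRho w
  isLocalizedModule0 := (isLocalizedModule_iff_isLocalization).mpr inferInstance
  isLocalizedModule1 := isLocalizedModule_unitRho s w

@[simp]
theorem unitDiag_rho0 (w : R01ˣ) (x : R0) :
    (unitDiag t s w).rho0 x = algebraMap R0 R01 x := rfl

@[simp]
theorem unitDiag_rho1 (w : R01ˣ) (y : R1) :
    (unitDiag t s w).rho1 y = (w : R01) * algebraMap R1 R01 y := rfl

/-- `unitDiag 1` is the unit diagram. -/
noncomputable def unitDiagOne : LineDiag.Iso (unitDiag t s (1 : R01ˣ)) (LineDiag.unit t s R01) where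
  e0 := LinearEquiv.refl R0 R0
  e1 := LinearEquiv.refl R1 R1
  e01 := LinearEquiv.refl R01 R01
  comm0 _ := rfl
  comm1 y := by
    change ((1 : R01ˣ) : R01) * algebraMap R1 R01 y = algebraMap R1 R01 y
    rw [Units.val_one, one_mul]

/-- Tensor products of unit-glued diagrams. -/
noncomputable def unitDiagTensor (v w : R01ˣ) :
    LineDiag.Iso (tensor (unitDiag t s v) (unitDiag t s w)) (unitDiag t s (v * w)) where
  e0 := TensorProduct.lid R0 R0
  e1 := TensorProduct.lid R1 R1
  e01 := TensorProduct.lid R01 R01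
  comm0 x := lid_tensorMap R01 (Algebra.linearMap R0 R01) x
  comm1 x := lid_tensorMap_unitRho (R1 := R1) v w x

/-- The class of a unit-glued diagram, as a group homomorphism. -/
noncomputable def unitClass : R01ˣ →* LineDiag.Classes t s R01 where
  toFun w := cls (unitDiag t s w)
  map_one' := Quotient.sound ⟨unitDiagOne t s⟩
  map_mul' v w := (Quotient.sound ⟨unitDiagTensor t s v w⟩ :
    cls (tensor (unitDiag t s v) (unitDiag t s w)) = cls (unitDiag t s (v * w))).symm

@[simp]
theorem unitClass_apply (w : R01ˣ) : unitClass t s w = cls (unitDiag t s w) := rfl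

/-! ### Isomorphisms between unit-glued diagrams -/

section UnitOfEquiv

variable {R : Type u} [CommRing R]

/-- A linear automorphism of `R` is multiplication by a unit. -/
def unitOfEquiv (e : R ≃ₗ[R] R) : Rˣ where
  val := e 1
  inv := e.symm 1
  val_inv := by
    have h : e (e.symm 1) = e.symm 1 * e 1 := by
      conv_lhs => rw [← mul_one (e.symm 1), ← smul_eq_mul, map_smul, smul_eq_mul]
    rw [mul_comm, ← h, LinearEquiv.apply_symm_apply]
  inv_val := by
    have h : e (e.symm 1) = e.symm 1 * e 1 := by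
      conv_lhs => rw [← mul_one (e.symm 1), ← smul_eq_mul, map_smul, smul_eq_mul]
    rw [← h, LinearEquiv.apply_symm_apply]

theorem unitOfEquiv_mul (e : R ≃ₗ[R] R) (x : R) : (unitOfEquiv e : R) * x = e x := by
  change e 1 * x = e x
  conv_rhs => rw [← mul_one x, ← smul_eq_mul, map_smul, smul_eq_mul]
  rw [mul_comm]

end UnitOfEquiv

/-- Unit-glued diagrams are isomorphic iff the gluing units differ by units of the two charts. -/
theorem unitDiag_iso_iff (v v' : R01ˣ) :
    Nonempty (LineDiag.Iso (unitDiag t s v) (unitDiag t s v')) ↔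
      ∃ (a0 : R0ˣ) (a1 : R1ˣ),
        (v' : R01) * algebraMap R1 R01 a1 = algebraMap R0 R01 a0 * v := by
  constructor
  · rintro ⟨e⟩
    let e0 : R0 ≃ₗ[R0] R0 := e.e0
    let e1 : R1 ≃ₗ[R1] R1 := e.e1
    let e01 : R01 ≃ₗ[R01] R01 := e.e01
    have h0 : ∀ x : R0, e01 (algebraMap R0 R01 x) = algebraMap R0 R01 (e0 x) := e.comm0
    have h1 : ∀ y : R1, e01 ((v : R01) * algebraMap R1 R01 y) =
        (v' : R01) * algebraMap R1 R01 (e1 y) := e.comm1
    refine ⟨unitOfEquiv e0, unitOfEquiv e1, ?_⟩
    change (v' : R01) * algebraMap R1 R01 (e1 1) = algebraMap R0 R01 (e0 1) * v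
    have h0' := h0 1
    have h1' := h1 1
    rw [map_one] at h0'
    rw [map_one, mul_one] at h1'
    rw [← h1', ← h0']
    have : e01 ((v : R01) • (1 : R01)) = (v : R01) • e01 (1 : R01) := map_smul _ _ _
    rw [smul_eq_mul, mul_one, smul_eq_mul] at this
    rw [this, mul_comm]
  · rintro ⟨a0, a1, h⟩
    have hc0 : ∀ x : R0, (LinearEquiv.smulOfUnit (Units.map (algebraMap R0 R01).toMonoidHom a0) :
        R01 ≃ₗ[R01] R01) (algebraMap R0 R01 x) =
        algebraMap R0 R01 ((LinearEquiv.smulOfUnit a0 : R0 ≃ₗ[R0] R0) x) := by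
      intro x
      change algebraMap R0 R01 a0 * algebraMap R0 R01 x = algebraMap R0 R01 ((a0 : R0) * x)
      rw [map_mul]
    have hc1 : ∀ y : R1, (LinearEquiv.smulOfUnit (Units.map (algebraMap R0 R01).toMonoidHom a0) :
        R01 ≃ₗ[R01] R01) ((v : R01) * algebraMap R1 R01 y) =
        (v' : R01) * algebraMap R1 R01 ((LinearEquiv.smulOfUnit a1 : R1 ≃ₗ[R1] R1) y) := by
      intro y
      change algebraMap R0 R01 a0 * ((v : R01) * algebraMap R1 R01 y) =
        (v' : R01) * algebraMap R1 R01 ((a1 : R1) * y)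
      rw [map_mul, ← mul_assoc, ← mul_assoc, h]
    exact ⟨{ e0 := (LinearEquiv.smulOfUnit a0 : R0 ≃ₗ[R0] R0)
             e1 := (LinearEquiv.smulOfUnit a1 : R1 ≃ₗ[R1] R1)
             e01 := (LinearEquiv.smulOfUnit (Units.map (algebraMap R0 R01).toMonoidHom a0) :
               R01 ≃ₗ[R01] R01)
             comm0 := hc0
             comm1 := hc1 }⟩

/-- The class of `unitDiag v` is trivial iff `v` is a quotient of units of the two charts. -/
theorem unitClass_eq_one_iff (v : R01ˣ) :
    unitClass t s v = 1 ↔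
      ∃ (a0 : R0ˣ) (a1 : R1ˣ), algebraMap R1 R01 a1 = algebraMap R0 R01 a0 * v := by
  rw [← map_one (unitClass t s), unitClass_apply, unitClass_apply, cls_eq_iff, unitDiag_iso_iff]
  simp only [Units.val_one, one_mul]

/-! ### Line diagrams with free vertices -/

/-- A line diagram with trivialised vertices `M0`, `M1` is unit-glued. -/
theorem exists_iso_unitDiag (N : LineDiag t s R01) (f0 : R0 ≃ₗ[R0] N.M0) (f1 : R1 ≃ₗ[R1] N.M1) :
    ∃ (v : R01ˣ) (e : LineDiag.Iso (unitDiag t s v) N), e.e0 = f0 ∧ e.e1 = f1 := by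
  have : IsLocalizedModule (Submonoid.powers t) (Algebra.linearMap R0 R01) :=
    (isLocalizedModule_iff_isLocalization).mpr inferInstance
  have : IsLocalizedModule (Submonoid.powers s) (Algebra.linearMap R1 R01) :=
    (isLocalizedModule_iff_isLocalization).mpr inferInstance
  -- the two trivialisations of `M01`
  let g0 : R01 ≃ₗ[R01] N.M01 :=
    LinearEquiv.extendScalarsOfIsLocalization (Submonoid.powers t) R01
      (IsLocalizedModule.linearEquiv (Submonoid.powers t) (Algebra.linearMap R0 R01)
        (N.rho0 ∘ₗ f0.toLinearMap))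
  let g1 : R01 ≃ₗ[R01] N.M01 :=
    LinearEquiv.extendScalarsOfIsLocalization (Submonoid.powers s) R01
      (IsLocalizedModule.linearEquiv (Submonoid.powers s) (Algebra.linearMap R1 R01)
        (N.rho1 ∘ₗ f1.toLinearMap))
  have hg0 : ∀ x : R0, g0 (algebraMap R0 R01 x) = N.rho0 (f0 x) := fun x =>
    IsLocalizedModule.linearEquiv_apply (Submonoid.powers t) (Algebra.linearMap R0 R01)
      (N.rho0 ∘ₗ f0.toLinearMap) x
  have hg1 : ∀ y : R1, g1 (algebraMap R1 R01 y) = N.rho1 (f1 y) := fun y =>
    IsLocalizedModule.linearEquiv_apply (Submonoid.powers s) (Algebra.linearMap R1 R01)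
      (N.rho1 ∘ₗ f1.toLinearMap) y
  have hc1 : ∀ y : R1, g0 ((unitOfEquiv (g1.trans g0.symm) : R01) * algebraMap R1 R01 y) =
      N.rho1 (f1 y) := by
    intro y
    rw [unitOfEquiv_mul, LinearEquiv.trans_apply, LinearEquiv.apply_symm_apply, hg1]
  exact ⟨unitOfEquiv (g1.trans g0.symm), ⟨f0, f1, g0, hg0, hc1⟩, rfl, rfl⟩

/-! ### Base change of unit-glued diagrams -/

section RingSemilinear

variable {R R' : Type u} [CommRing R] [CommRing R'] (φ : R →+* R')

/-- A ring homomorphism as a semilinear map. -/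
def ringSemilinear : R →ₛₗ[φ] R' where
  toFun := φ
  map_add' := map_add φ
  map_smul' a x := by simp [smul_eq_mul]

@[simp]
theorem ringSemilinear_apply (x : R) : ringSemilinear φ x = φ x := rfl

/-- `R'` is the base change of `R` along `φ : R → R'`. -/
theorem isBaseChangeHom_ringSemilinear : IsBaseChangeHom (ringSemilinear φ) := by
  intro Q _ _ g
  refine ⟨LinearMap.toSpanSingleton R' Q (g 1), fun x => ?_, fun g' hg' => ?_⟩
  · rw [LinearMap.toSpanSingleton_apply, ringSemilinear_apply, ← LinearMap.map_smulₛₗ,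
      smul_eq_mul, mul_one]
  · apply LinearMap.ext_ring
    have h1 := hg' 1
    rw [ringSemilinear_apply, map_one] at h1
    rw [LinearMap.toSpanSingleton_apply, one_smul, h1]

end RingSemilinear

section BaseChange

variable {R0' R1' R01' : Type u} [CommRing R0'] [CommRing R1'] [CommRing R01']
  [Algebra R0' R01'] [Algebra R1' R01'] {t' : R0'} {s' : R1'}
  [IsLocalization.Away t' R01'] [IsLocalization.Away s' R01']

variable {t s}

/-- The base change of `unitDiag v` along a morphism of families is `unitDiag (ψ01 v)`. -/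
noncomputable def cartHomUnitDiag (ψ : FamilyHom t s t' s' R01 R01') (v : R01ˣ) :
    LineDiag.CartHom ψ (unitDiag t s v) (unitDiag t' s' (Units.map ψ.ψ01.toMonoidHom v)) :=
  have hc0 : ∀ x : R0, ringSemilinear ψ.ψ01 (algebraMap R0 R01 x) =
      algebraMap R0' R01' (ringSemilinear ψ.ψ0 x) := ψ.comm0
  have hc1 : ∀ y : R1, ringSemilinear ψ.ψ01 ((v : R01) * algebraMap R1 R01 y) =
      ψ.ψ01 v * algebraMap R1' R01' (ringSemilinear ψ.ψ1 y) := fun y => by
    rw [ringSemilinear_apply, ringSemilinear_apply, map_mul, ψ.comm1]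
  { f0 := ringSemilinear ψ.ψ0
    f1 := ringSemilinear ψ.ψ1
    f01 := ringSemilinear ψ.ψ01
    comm0 := hc0
    comm1 := hc1
    cart0 := isBaseChangeHom_ringSemilinear ψ.ψ0
    cart1 := isBaseChangeHom_ringSemilinear ψ.ψ1
    cart01 := isBaseChangeHom_ringSemilinear ψ.ψ01 }

/-- Base change of classes of unit-glued diagrams. -/
theorem baseChangeClass_unitClass (ψ : FamilyHom t s t' s' R01 R01') (v : R01ˣ) :
    baseChangeClass ψ (unitClass t s v) = unitClass t' s' (Units.map ψ.ψ01.toMonoidHom v) := by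
  rw [unitClass_apply, unitClass_apply, baseChangeClass_cls_eq_iff]
  exact ⟨cartHomUnitDiag ψ v⟩

end BaseChange

end Fermat.Agent.JAC.Tangent.UnitDiag70
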