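/-
Programme JAC (S27 track, C4), chapter Tangent.  Owner: helper70.

**The exponential sequence of a square-zero thickening of two-chart families.**
Let `ψ : (R0 → R01 ← R1) ⟶ (R0' → R01' ← R1')` be a morphism of families, surjective on the three
rings, with `(ker ψ01)² = 0` and `ker ψ0`, `ker ψ1` nilpotent.  Then
* `expClass ψ h : Multiplicative (ker ψ01) →* Classes t s R01`, `a ↦ [unitDiag (1 + a)]`;
* `range_expClass` : its range is the kernel of `baseChangeClass ψ`;
* `expClass_eq_one_iff` : its kernel is `alg (ker ψ1) - alg (ker ψ0)`, provided global units of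
  the target family lift (`UnitsLift ψ`; e.g. if `ψ` has a section);
* `baseChangeClass_expClass` : naturality in the thickening.
So `ker (Pic S → Pic R) ≃ I01 / (I0 + I1) = H¹(I)`.
-/
import Mathlib
import Fermat.Agent.JAC.Tangent.UnitDiag70
import Fermat.Agent.JAC.Lift.LineDiagLift70

set_option autoImplicit false

universe u

open TensorProduct

namespace Fermat.Agent.JAC.Tangent.Exp70

open Fermat.Agent.JAC.Core.Defs36 Fermat.Agent.JAC.Core.Cart36 Fermat.Agent.JAC.Grp.Diag33
  Fermat.Agent.JAC.Grp.Cart33 Fermat.Agent.JAC.Tangent.UnitDiag70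
  Fermat.Agent.JAC.Lift.LineDiagLift70

/-! ### Units `1 + a` for `a` in a square-zero ideal -/

section ExpUnit

variable {R : Type u} [CommRing R] (I : Ideal R) (hI : I ^ 2 = ⊥)

include hI in
theorem mul_eq_zero_of_sq {a b : R} (ha : a ∈ I) (hb : b ∈ I) : a * b = 0 := by
  have : a * b ∈ I ^ 2 := by
    rw [pow_two]
    exact Ideal.mul_mem_mul ha hb
  rw [hI] at this
  simpa using this

/-- The unit `1 + a` for `a` in a square-zero ideal. -/
def expUnit (a : I) : Rˣ where
  val := 1 + a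
  inv := 1 - a
  val_inv := by
    have := mul_eq_zero_of_sq I hI a.2 a.2
    linear_combination -this
  inv_val := by
    have := mul_eq_zero_of_sq I hI a.2 a.2
    linear_combination -this

@[simp]
theorem expUnit_val (a : I) : (expUnit I hI a : R) = 1 + a := rfl

/-- `a ↦ 1 + a` as a homomorphism from the additive group of `I` to the units. -/
def expHom : Multiplicative I →* Rˣ where
  toFun a := expUnit I hI (Multiplicative.toAdd a)
  map_one' := by
    apply Units.ext
    simp
  map_mul' a b := by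
    apply Units.ext
    have := mul_eq_zero_of_sq I hI (Multiplicative.toAdd a).2 (Multiplicative.toAdd b).2
    simp only [expUnit_val, toAdd_mul, Submodule.coe_add, Units.val_mul]
    linear_combination -this

@[simp]
theorem expHom_apply (a : I) : (expHom I hI (Multiplicative.ofAdd a) : R) = 1 + a := rfl

end ExpUnit

/-! ### Lifting trivialisations along a cartesian semilinear map -/

section Triv

variable {R R' : Type u} [CommRing R] [CommRing R'] (φ : R →+* R')
  {P : Type u} [AddCommGroup P] [Module R P]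

/-- If `θ : P → R'` exhibits `R'` as the base change of the projective module `P` along a
surjection `φ : R → R'` with nilpotent kernel, then `P` is free of rank one, compatibly. -/
theorem exists_trivialization_of_isBaseChangeHom (hs : Function.Surjective φ)
    (hn : IsNilpotent (RingHom.ker φ)) [Module.Projective R P] (θ : P →ₛₗ[φ] R')
    (h : IsBaseChangeHom θ) : ∃ f : R ≃ₗ[R] P, ∀ x, θ (f x) = φ x := by
  let _ : Algebra R R' := φ.toAlgebra
  let q : P →ₗ[R] R' :=
    { toFun := θ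
      map_add' := map_add θ
      map_smul' := fun r x => by
        rw [LinearMap.map_smulₛₗ]
        rfl }
  have hq' : toSemilinear R' q = θ := LinearMap.ext fun _ => rfl
  have hq : IsBaseChange R' q := isBaseChange_of_isBaseChangeHom q (hq' ▸ h)
  obtain ⟨τ, hτ⟩ := exists_trivialization_lift (B := R) (B' := R') hs hn hq
    (LinearEquiv.refl R' R')
  refine ⟨τ.symm, fun x => ?_⟩
  have := hτ (τ.symm x)
  rw [LinearEquiv.apply_symm_apply] at this
  exact this.symm

end Triv

/-! ### The exponential map -/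

section Exp

variable {R0 R1 R01 : Type u} [CommRing R0] [CommRing R1] [CommRing R01]
  [Algebra R0 R01] [Algebra R1 R01] {t : R0} {s : R1}
variable {R0' R1' R01' : Type u} [CommRing R0'] [CommRing R1'] [CommRing R01']
  [Algebra R0' R01'] [Algebra R1' R01'] {t' : R0'} {s' : R1'}
  [IsLocalization.Away t R01] [IsLocalization.Away s R01]
  [IsLocalization.Away t' R01'] [IsLocalization.Away s' R01']
  (ψ : FamilyHom t s t' s' R01 R01') (h01 : (RingHom.ker ψ.ψ01) ^ 2 = ⊥)

/-- The exponential map `a ↦ [unitDiag (1 + a)]` on the square-zero ideal `ker ψ01`. -/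
noncomputable def expClass : Multiplicative (RingHom.ker ψ.ψ01) →* LineDiag.Classes t s R01 :=
  (unitClass t s).comp (expHom _ h01)

omit [IsLocalization.Away t' R01'] [IsLocalization.Away s' R01'] in
theorem expClass_apply (a : RingHom.ker ψ.ψ01) :
    expClass ψ h01 (Multiplicative.ofAdd a) = cls (unitDiag t s (expUnit _ h01 a)) := rfl

/-- The exponential map lands in the kernel of base change. -/
theorem baseChangeClass_expClass_eq_one (a : Multiplicative (RingHom.ker ψ.ψ01)) :
    baseChangeClass ψ (expClass ψ h01 a) = 1 := by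
  change baseChangeClass ψ (unitClass t s (expHom _ h01 a)) = 1
  rw [baseChangeClass_unitClass]
  have : Units.map ψ.ψ01.toMonoidHom (expHom _ h01 a) = 1 := by
    apply Units.ext
    change ψ.ψ01 (1 + ((Multiplicative.toAdd a : RingHom.ker ψ.ψ01) : R01)) = 1
    rw [map_add, map_one, (RingHom.mem_ker).mp (Multiplicative.toAdd a).2, add_zero]
  rw [this, map_one]

/-- Every class in the kernel of base change is an exponential. -/
theorem exists_expClass_eq (hs0 : Function.Surjective ψ.ψ0)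
    (hn0 : IsNilpotent (RingHom.ker ψ.ψ0)) (hs1 : Function.Surjective ψ.ψ1)
    (hn1 : IsNilpotent (RingHom.ker ψ.ψ1)) (ξ : LineDiag.Classes t s R01)
    (hξ : baseChangeClass ψ ξ = 1) : ∃ a, expClass ψ h01 a = ξ := by
  induction ξ using Quotient.inductionOn with
  | _ N =>
    change baseChangeClass ψ (cls N) = 1 at hξ
    rw [cls_one, baseChangeClass_cls_eq_iff] at hξ
    obtain ⟨c⟩ := hξ
    -- typed components of the cartesian morphism to the unit diagram
    let c0 : N.M0 →ₛₗ[ψ.ψ0] R0' := c.f0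
    let c1 : N.M1 →ₛₗ[ψ.ψ1] R1' := c.f1
    let c01 : N.M01 →ₛₗ[ψ.ψ01] R01' := c.f01
    have hc0 : ∀ x, c01 (N.rho0 x) = algebraMap R0' R01' (c0 x) := c.comm0
    have hc1 : ∀ y, c01 (N.rho1 y) = algebraMap R1' R01' (c1 y) := c.comm1
    obtain ⟨f0, hf0⟩ := exists_trivialization_of_isBaseChangeHom ψ.ψ0 hs0 hn0 c0 c.cart0
    obtain ⟨f1, hf1⟩ := exists_trivialization_of_isBaseChangeHom ψ.ψ1 hs1 hn1 c1 c.cart1
    obtain ⟨v, e, he0, he1⟩ := exists_iso_unitDiag t s N f0 f1
    -- typed components of the isomorphism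
    let e01 : R01 ≃ₗ[R01] N.M01 := e.e01
    have hE0 : ∀ x : R0, e01 (algebraMap R0 R01 x) = N.rho0 (f0 x) := fun x => by
      have := e.comm0 x
      rw [he0] at this
      exact this
    have hE1 : ∀ y : R1, e01 ((v : R01) * algebraMap R1 R01 y) = N.rho1 (f1 y) := fun y => by
      have := e.comm1 y
      rw [he1] at this
      exact this
    -- the gluing unit reduces to `1`
    have h1 : c01 (e01 1) = 1 := by
      have := hE0 1
      rw [map_one] at this
      rw [this, hc0, hf0, map_one, map_one]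
    have h2 : c01 (e01 (v : R01)) = 1 := by
      have := hE1 1
      rw [map_one, mul_one] at this
      rw [this, hc1, hf1, map_one, map_one]
    have h3 : c01 (e01 (v : R01)) = ψ.ψ01 v * c01 (e01 1) := by
      have : e01 ((v : R01) • (1 : R01)) = (v : R01) • e01 1 := map_smul _ _ _
      rw [smul_eq_mul, mul_one] at this
      rw [this, LinearMap.map_smulₛₗ, smul_eq_mul]
    have hv : ψ.ψ01 v = 1 := by rw [← h2, h3, h1, mul_one]
    -- so `v = 1 + a`
    have ha : (v : R01) - 1 ∈ RingHom.ker ψ.ψ01 := by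
      rw [RingHom.mem_ker, map_sub, hv, map_one, sub_self]
    refine ⟨Multiplicative.ofAdd ⟨(v : R01) - 1, ha⟩, ?_⟩
    rw [expClass_apply]
    change cls _ = cls N
    rw [cls_eq_iff]
    have : expUnit _ h01 ⟨(v : R01) - 1, ha⟩ = v := by
      apply Units.ext
      simp
    rw [this]
    exact ⟨e⟩

/-- Global units of the target family lift to global units of the source family. -/
def UnitsLift : Prop :=
  ∀ (a0 : R0'ˣ) (a1 : R1'ˣ), algebraMap R0' R01' a0 = algebraMap R1' R01' a1 →
    ∃ (b0 : R0ˣ) (b1 : R1ˣ), ψ.ψ0 b0 = a0 ∧ ψ.ψ1 b1 = a1 ∧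
      algebraMap R0 R01 b0 = algebraMap R1 R01 b1

omit [IsLocalization.Away t R01] [IsLocalization.Away s R01]
  [IsLocalization.Away t' R01'] [IsLocalization.Away s' R01'] in
/-- A section of `ψ` lifts global units. -/
theorem unitsLift_of_section (σ : FamilyHom t' s' t s R01' R01)
    (h0 : ∀ x, ψ.ψ0 (σ.ψ0 x) = x) (h1 : ∀ x, ψ.ψ1 (σ.ψ1 x) = x) : UnitsLift ψ := by
  intro a0 a1 h
  refine ⟨Units.map σ.ψ0.toMonoidHom a0, Units.map σ.ψ1.toMonoidHom a1, h0 _, h1 _, ?_⟩
  change algebraMap R0 R01 (σ.ψ0 a0) = algebraMap R1 R01 (σ.ψ1 a1)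
  rw [← σ.comm0, ← σ.comm1, h]

omit [IsLocalization.Away t' R01'] [IsLocalization.Away s' R01'] in
/-- The kernel of the exponential map. -/
theorem expClass_eq_one_iff (hn0 : IsNilpotent (RingHom.ker ψ.ψ0))
    (hn1 : IsNilpotent (RingHom.ker ψ.ψ1)) (hu : UnitsLift ψ) (a : RingHom.ker ψ.ψ01) :
    expClass ψ h01 (Multiplicative.ofAdd a) = 1 ↔
      ∃ x0 ∈ RingHom.ker ψ.ψ0, ∃ x1 ∈ RingHom.ker ψ.ψ1,
        (a : R01) = algebraMap R1 R01 x1 - algebraMap R0 R01 x0 := by
  have hker0 : ∀ x0 ∈ RingHom.ker ψ.ψ0, algebraMap R0 R01 x0 ∈ RingHom.ker ψ.ψ01 := by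
    intro x0 hx0
    rw [RingHom.mem_ker, ψ.comm0, (RingHom.mem_ker).mp hx0, map_zero]
  rw [expClass_apply, ← unitClass_apply, unitClass_eq_one_iff]
  constructor
  · rintro ⟨a0, a1, h⟩
    rw [expUnit_val] at h
    have ha : ψ.ψ01 (a : R01) = 0 := (RingHom.mem_ker).mp a.2
    have hred : algebraMap R0' R01' (ψ.ψ0 a0) = algebraMap R1' R01' (ψ.ψ1 a1) := by
      have := congrArg ψ.ψ01 h
      rw [map_mul, map_add, map_one, ha, add_zero, mul_one, ψ.comm0, ψ.comm1] at this
      exact this.symm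
    obtain ⟨b0, b1, hb0, hb1, hb⟩ :=
      hu (Units.map ψ.ψ0.toMonoidHom a0) (Units.map ψ.ψ1.toMonoidHom a1) hred
    have hb0' : ψ.ψ0 (b0 : R0) = ψ.ψ0 (a0 : R0) := hb0
    have hb1' : ψ.ψ1 (b1 : R1) = ψ.ψ1 (a1 : R1) := hb1
    have hx0 : (a0 : R0) * ((b0⁻¹ : R0ˣ) : R0) - 1 ∈ RingHom.ker ψ.ψ0 := by
      rw [RingHom.mem_ker, map_sub, map_mul, map_one, ← hb0', ← map_mul, Units.mul_inv, map_one,
        sub_self]
    have hx1 : (a1 : R1) * ((b1⁻¹ : R1ˣ) : R1) - 1 ∈ RingHom.ker ψ.ψ1 := by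
      rw [RingHom.mem_ker, map_sub, map_mul, map_one, ← hb1', ← map_mul, Units.mul_inv, map_one,
        sub_self]
    refine ⟨_, hx0, _, hx1, ?_⟩
    -- the inverses of `b0`, `b1` agree on the overlap
    have hinv : algebraMap R1 R01 ((b1⁻¹ : R1ˣ) : R1) = algebraMap R0 R01 ((b0⁻¹ : R0ˣ) : R0) := by
      have e0 : algebraMap R0 R01 (b0 : R0) * algebraMap R0 R01 ((b0⁻¹ : R0ˣ) : R0) = 1 := by
        rw [← map_mul, Units.mul_inv, map_one]
      have e1 : algebraMap R1 R01 (b1 : R1) * algebraMap R1 R01 ((b1⁻¹ : R1ˣ) : R1) = 1 := by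
        rw [← map_mul, Units.mul_inv, map_one]
      rw [← hb] at e1
      calc algebraMap R1 R01 ((b1⁻¹ : R1ˣ) : R1)
          = (algebraMap R0 R01 (b0 : R0) * algebraMap R0 R01 ((b0⁻¹ : R0ˣ) : R0)) *
              algebraMap R1 R01 ((b1⁻¹ : R1ˣ) : R1) := by rw [e0, one_mul]
        _ = algebraMap R0 R01 ((b0⁻¹ : R0ˣ) : R0) *
              (algebraMap R0 R01 (b0 : R0) * algebraMap R1 R01 ((b1⁻¹ : R1ˣ) : R1)) := by ring
        _ = algebraMap R0 R01 ((b0⁻¹ : R0ˣ) : R0) := by rw [e1, mul_one]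
    have hz : algebraMap R0 R01 ((a0 : R0) * ((b0⁻¹ : R0ˣ) : R0) - 1) * (a : R01) = 0 :=
      mul_eq_zero_of_sq _ h01 (hker0 _ hx0) a.2
    rw [map_sub, map_mul, map_one] at hz ⊢
    rw [map_sub, map_mul, map_one, hinv, h]
    linear_combination -hz
  · rintro ⟨x0, hx0, x1, hx1, h⟩
    have hnil0 : IsNilpotent x0 := by
      obtain ⟨n, hn⟩ := hn0
      refine ⟨n, ?_⟩
      have : x0 ^ n ∈ RingHom.ker ψ.ψ0 ^ n := Ideal.pow_mem_pow hx0 n
      rw [hn] at this
      simpa using this
    have hnil1 : IsNilpotent x1 := by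
      obtain ⟨n, hn⟩ := hn1
      refine ⟨n, ?_⟩
      have : x1 ^ n ∈ RingHom.ker ψ.ψ1 ^ n := Ideal.pow_mem_pow hx1 n
      rw [hn] at this
      simpa using this
    refine ⟨(hnil0.isUnit_one_add).unit, (hnil1.isUnit_one_add).unit, ?_⟩
    rw [IsUnit.unit_spec, IsUnit.unit_spec, expUnit_val, map_add, map_add, map_one, map_one]
    have hz : algebraMap R0 R01 x0 * (a : R01) = 0 :=
      mul_eq_zero_of_sq _ h01 (hker0 _ hx0) a.2
    rw [h] at hz ⊢
    linear_combination -hz

end Exp

/-! ### Naturality -/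

section Natural

variable {R0 R1 R01 : Type u} [CommRing R0] [CommRing R1] [CommRing R01]
  [Algebra R0 R01] [Algebra R1 R01] {t : R0} {s : R1}
variable {S0 S1 S01 : Type u} [CommRing S0] [CommRing S1] [CommRing S01]
  [Algebra S0 S01] [Algebra S1 S01] {t₂ : S0} {s₂ : S1}
variable {R0' R1' R01' : Type u} [CommRing R0'] [CommRing R1'] [CommRing R01']
  [Algebra R0' R01'] [Algebra R1' R01'] {t' : R0'} {s' : R1'}
  [IsLocalization.Away t R01] [IsLocalization.Away s R01]
  [IsLocalization.Away t₂ S01] [IsLocalization.Away s₂ S01]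
  [IsLocalization.Away t' R01'] [IsLocalization.Away s' R01']

omit [IsLocalization.Away t' R01'] [IsLocalization.Away s' R01'] in
/-- The exponential map is natural in the thickening. -/
theorem baseChangeClass_expClass (ψ : FamilyHom t s t' s' R01 R01')
    (h01 : (RingHom.ker ψ.ψ01) ^ 2 = ⊥) (ψ₂ : FamilyHom t₂ s₂ t' s' S01 R01')
    (h01₂ : (RingHom.ker ψ₂.ψ01) ^ 2 = ⊥) (χ : FamilyHom t s t₂ s₂ R01 S01)
    (hcomp : ∀ z, ψ₂.ψ01 (χ.ψ01 z) = ψ.ψ01 z) (a : RingHom.ker ψ.ψ01) :
    baseChangeClass χ (expClass ψ h01 (Multiplicative.ofAdd a)) =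
      expClass ψ₂ h01₂ (Multiplicative.ofAdd ⟨χ.ψ01 a, by
        rw [RingHom.mem_ker, hcomp]; exact (RingHom.mem_ker).mp a.2⟩) := by
  rw [expClass_apply, expClass_apply, ← unitClass_apply, ← unitClass_apply,
    baseChangeClass_unitClass]
  congr 1
  apply Units.ext
  change χ.ψ01 (1 + (a : R01)) = 1 + χ.ψ01 a
  rw [map_add, map_one]

end Natural

end Fermat.Agent.JAC.Tangent.Exp70
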