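/-
Programme JAC (S27 track, C4), chapter Tangent.  Owner: helper70.

**The tangent space of the Picard functor of the two-chart curve.**  For the constant family over
the trivial square-zero extension `K ⊕ V` (`V` a `K`-module), the fibre of
`bc fst : Cl (K ⊕ V) → Cl K` over any class is in natural bijection with
`V ⊗ (A01 / (A0 + A1))`, i.e. with `Fin g → V` once `A01 / (A0 + A1) ≃ K^g` is chosen.
-/
import Mathlib
import Fermat.Agent.JAC.Tangent.Exp70
import Fermat.Agent.JAC.Grp.ConstBc33
import Fermat.Agent.JAC.Smooth.LiftConst85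

set_option autoImplicit false

universe u

open TensorProduct TrivSqZeroExt

namespace Fermat.Agent.JAC.Tangent.ConstTangent70

open scoped Fermat.Agent.JAC.Core.ConstFamily36
open Fermat.Agent.JAC.Core.Defs36 Fermat.Agent.JAC.Core.Cart36 Fermat.Agent.JAC.Core.ConstFamily36
  Fermat.Agent.JAC.Core.AlgAtlas36 Fermat.Agent.JAC.Grp.Diag33 Fermat.Agent.JAC.Grp.Cart33
  Fermat.Agent.JAC.Grp.ConstBc33 Fermat.Agent.JAC.Tangent.UnitDiag70
  Fermat.Agent.JAC.Tangent.Exp70 Fermat.Agent.JAC.Smooth.LiftConst85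

/-! ### The square-zero ideal of `(K ⊕ V) ⊗ A` -/

section Ideal

variable (K : Type u) [Field K] (V : Type u) [AddCommGroup V] [Module K V] [Module Kᵐᵒᵖ V]
  [IsCentralScalar K V] (A : Type u) [CommRing A] [Algebra K A]

/-- The reduction map `(K ⊕ V) ⊗ A → K ⊗ A`. -/
noncomputable abbrev red : TrivSqZeroExt K V ⊗[K] A →ₐ[K] K ⊗[K] A :=
  Algebra.TensorProduct.map (fstHom K K V) (AlgHom.id K A)

/-- The constant section `K ⊗ A → (K ⊕ V) ⊗ A`. -/
noncomputable abbrev sec : K ⊗[K] A →ₐ[K] TrivSqZeroExt K V ⊗[K] A :=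
  Algebra.TensorProduct.map (inlAlgHom K K V) (AlgHom.id K A)

theorem red_sec (x : K ⊗[K] A) : red K V A (sec K V A x) = x := by
  induction x using TensorProduct.induction_on with
  | zero => simp
  | tmul b a => simp
  | add x y hx hy => simp only [map_add, hx, hy]

theorem red_surjective : Function.Surjective (red K V A) :=
  fun x => ⟨sec K V A x, red_sec K V A x⟩

theorem ker_fstHom_sq : (RingHom.ker (fstHom K K V)) ^ 2 = ⊥ := kerIdeal_sq K V

/-- The kernel of the reduction map is a square-zero ideal. -/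
theorem ker_red_sq : (RingHom.ker (red K V A)) ^ 2 = ⊥ := by
  rw [Algebra.TensorProduct.rTensor_ker (fstHom K K V) (fun x => ⟨inl x, rfl⟩),
    ← Ideal.map_pow, ker_fstHom_sq, Ideal.map_bot]

theorem ker_red_isNilpotent : IsNilpotent (RingHom.ker (red K V A)) :=
  ⟨2, ker_red_sq K V A⟩

/-- The inclusion `V ⊗ A → (K ⊕ V) ⊗ A`. -/
noncomputable def incl : V ⊗[K] A →ₗ[K] TrivSqZeroExt K V ⊗[K] A :=
  LinearMap.rTensor A (inrHom K V)

/-- The projection `(K ⊕ V) ⊗ A → V ⊗ A`. -/
noncomputable def proj : TrivSqZeroExt K V ⊗[K] A →ₗ[K] V ⊗[K] A :=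
  LinearMap.rTensor A (sndHom K V)

omit [Module Kᵐᵒᵖ V] [IsCentralScalar K V] in
@[simp]
theorem incl_tmul (v : V) (a : A) : incl K V A (v ⊗ₜ a) = (inr v : TrivSqZeroExt K V) ⊗ₜ a := rfl

omit [Module Kᵐᵒᵖ V] [IsCentralScalar K V] in
@[simp]
theorem proj_tmul (x : TrivSqZeroExt K V) (a : A) : proj K V A (x ⊗ₜ a) = x.snd ⊗ₜ a := rfl

omit [Module Kᵐᵒᵖ V] [IsCentralScalar K V] in
theorem proj_incl (w : V ⊗[K] A) : proj K V A (incl K V A w) = w := by
  induction w using TensorProduct.induction_on with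
  | zero => simp
  | tmul v a => simp
  | add x y hx hy => simp only [map_add, hx, hy]

theorem red_incl (w : V ⊗[K] A) : red K V A (incl K V A w) = 0 := by
  induction w using TensorProduct.induction_on with
  | zero => simp
  | tmul v a => simp
  | add x y hx hy => simp only [map_add, hx, hy, add_zero]

/-- Every element is the sum of its constant part and its `V`-part. -/
theorem sec_red_add_incl_proj (x : TrivSqZeroExt K V ⊗[K] A) :
    sec K V A (red K V A x) + incl K V A (proj K V A x) = x := by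
  induction x using TensorProduct.induction_on with
  | zero => simp
  | tmul b a =>
    simp only [Algebra.TensorProduct.map_tmul, AlgHom.coe_id, id_eq, proj_tmul, incl_tmul,
      ← TensorProduct.add_tmul]
    congr 1
    exact TrivSqZeroExt.ext (by simp) (by simp)
  | add x y hx hy =>
    simp only [map_add]
    conv_rhs => rw [← hx, ← hy]
    abel

theorem mem_ker_red_iff (x : TrivSqZeroExt K V ⊗[K] A) :
    red K V A x = 0 ↔ incl K V A (proj K V A x) = x := by
  constructor
  · intro h
    have := sec_red_add_incl_proj K V A x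
    rwa [h, map_zero, zero_add] at this
  · intro h
    rw [← h, red_incl]

section Natural

variable {A} {A' : Type u} [CommRing A'] [Algebra K A'] (f : A →ₐ[K] A')

/-- `incl` is natural in `A`. -/
theorem map_incl (w : V ⊗[K] A) :
    Algebra.TensorProduct.map (AlgHom.id K (TrivSqZeroExt K V)) f (incl K V A w) =
      incl K V A' (LinearMap.lTensor V f.toLinearMap w) := by
  induction w using TensorProduct.induction_on with
  | zero => simp
  | tmul v a => simp
  | add x y hx hy => simp only [map_add, hx, hy]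

/-- `proj` is natural in `A`. -/
theorem proj_map (x : TrivSqZeroExt K V ⊗[K] A) :
    proj K V A' (Algebra.TensorProduct.map (AlgHom.id K (TrivSqZeroExt K V)) f x) =
      LinearMap.lTensor V f.toLinearMap (proj K V A x) := by
  induction x using TensorProduct.induction_on with
  | zero => simp
  | tmul b a => simp
  | add x y hx hy => simp only [map_add, hx, hy]

section Tower

variable (A) (A' : Type u) [CommRing A'] [Algebra K A'] [Algebra A A'] [IsScalarTower K A A']

/-- `incl` and the structure map `(K ⊕ V) ⊗ A → (K ⊕ V) ⊗ A'`. -/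
theorem algebraMap_incl (w : V ⊗[K] A) :
    algebraMap (TrivSqZeroExt K V ⊗[K] A) (TrivSqZeroExt K V ⊗[K] A') (incl K V A w) =
      incl K V A' (LinearMap.lTensor V (IsScalarTower.toAlgHom K A A').toLinearMap w) := by
  induction w using TensorProduct.induction_on with
  | zero => simp
  | tmul v a => simp
  | add x y hx hy => simp only [map_add, hx, hy]

/-- `proj` and the structure map `(K ⊕ V) ⊗ A → (K ⊕ V) ⊗ A'`. -/
theorem proj_algebraMap (x : TrivSqZeroExt K V ⊗[K] A) :
    proj K V A' (algebraMap (TrivSqZeroExt K V ⊗[K] A) (TrivSqZeroExt K V ⊗[K] A') x) =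
      LinearMap.lTensor V (IsScalarTower.toAlgHom K A A').toLinearMap (proj K V A x) := by
  induction x using TensorProduct.induction_on with
  | zero => simp
  | tmul b a => simp
  | add x y hx hy => simp only [map_add, hx, hy]

end Tower

variable {V} {V' : Type u} [AddCommGroup V'] [Module K V'] [Module Kᵐᵒᵖ V']
  [IsCentralScalar K V'] (l : V →ₗ[K] V')

/-- `incl` is natural in `V`. -/
theorem map_map_incl (w : V ⊗[K] A) :
    Algebra.TensorProduct.map (TrivSqZeroExt.map l) (AlgHom.id K A) (incl K V A w) =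
      incl K V' A (LinearMap.rTensor A l w) := by
  induction w using TensorProduct.induction_on with
  | zero => simp
  | tmul v a => simp
  | add x y hx hy => simp only [map_add, hx, hy]

end Natural

end Ideal

/-! ### The exponential map of the constant family over `K ⊕ V` -/

section Family

set_option linter.unusedSectionVars false

variable (K : Type u) [Field K] {A0 A1 : Type u} (A01 : Type u) [CommRing A0] [CommRing A1] [CommRing A01]
  [Algebra K A0] [Algebra K A1] [Algebra K A01] [Algebra A0 A01] [Algebra A1 A01]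
  [IsScalarTower K A0 A01] [IsScalarTower K A1 A01] (t : A0) (s : A1)
  [IsLocalization.Away t A01] [IsLocalization.Away s A01]
  (V : Type u) [AddCommGroup V] [Module K V] [Module Kᵐᵒᵖ V] [IsCentralScalar K V]

/-- The reduction `(K ⊕ V) ⊗ A_• → K ⊗ A_•` as a morphism of families. -/
noncomputable abbrev redHom :
    FamilyHom ((1 : TrivSqZeroExt K V) ⊗ₜ[K] t) ((1 : TrivSqZeroExt K V) ⊗ₜ[K] s)
      ((1 : K) ⊗ₜ[K] t) ((1 : K) ⊗ₜ[K] s) (TrivSqZeroExt K V ⊗[K] A01) (K ⊗[K] A01) :=
  familyHom (fstHom K K V) t s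

/-- The constant section as a morphism of families. -/
noncomputable abbrev secHom :
    FamilyHom ((1 : K) ⊗ₜ[K] t) ((1 : K) ⊗ₜ[K] s)
      ((1 : TrivSqZeroExt K V) ⊗ₜ[K] t) ((1 : TrivSqZeroExt K V) ⊗ₜ[K] s)
      (K ⊗[K] A01) (TrivSqZeroExt K V ⊗[K] A01) :=
  familyHom (inlAlgHom K K V) t s

theorem redHom_ker_sq : (RingHom.ker (redHom K A01 t s V).ψ01) ^ 2 = ⊥ := ker_red_sq K V A01

theorem redHom_ker0_isNilpotent : IsNilpotent (RingHom.ker (redHom K A01 t s V).ψ0) :=
  ker_red_isNilpotent K V A0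

theorem redHom_ker1_isNilpotent : IsNilpotent (RingHom.ker (redHom K A01 t s V).ψ1) :=
  ker_red_isNilpotent K V A1

theorem redHom_unitsLift : UnitsLift (redHom K A01 t s V) :=
  unitsLift_of_section (redHom K A01 t s V) (secHom K A01 t s V) (red_sec K V A0) (red_sec K V A1)

theorem incl_mem_ker (w : V ⊗[K] A01) : incl K V A01 w ∈ RingHom.ker (redHom K A01 t s V).ψ01 :=
  red_incl K V A01 w

/-- The exponential map `V ⊗ A01 → Cl (K ⊕ V)`. -/
noncomputable def expV (w : V ⊗[K] A01) : Cl K A0 A1 A01 t s (TrivSqZeroExt K V) :=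
  expClass (redHom K A01 t s V) (redHom_ker_sq K A01 t s V)
    (Multiplicative.ofAdd ⟨incl K V A01 w, incl_mem_ker K A01 t s V w⟩)

theorem expV_add (w w' : V ⊗[K] A01) : expV K A01 t s V (w + w') = expV K A01 t s V w * expV K A01 t s V w' := by
  unfold expV
  rw [← map_mul]
  congr 1
  apply Subtype.ext
  simp only [map_add]
  rfl

theorem expV_zero : expV K A01 t s V 0 = 1 := by
  unfold expV
  have : (⟨incl K V A01 0, incl_mem_ker K A01 t s V 0⟩ : RingHom.ker (redHom K A01 t s V).ψ01) = 0 := by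
    apply Subtype.ext
    simp
  rw [this]
  exact map_one _

theorem expV_neg (w : V ⊗[K] A01) : expV K A01 t s V (-w) = (expV K A01 t s V w)⁻¹ := by
  rw [eq_inv_iff_mul_eq_one, ← expV_add, neg_add_cancel, expV_zero]

/-- `expV` lands in the kernel of the reduction. -/
theorem bc_expV (w : V ⊗[K] A01) : bc (fstHom K K V) (expV K A01 t s V w) = 1 := by
  rw [bc_eq_baseChangeClass]
  exact baseChangeClass_expClass_eq_one _ _ _

/-- Every class with trivial reduction is an exponential. -/
theorem exists_expV_eq (ξ : Cl K A0 A1 A01 t s (TrivSqZeroExt K V))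
    (hξ : bc (fstHom K K V) ξ = 1) : ∃ w, expV K A01 t s V w = ξ := by
  rw [bc_eq_baseChangeClass] at hξ
  obtain ⟨a, ha⟩ := exists_expClass_eq (redHom K A01 t s V) (redHom_ker_sq K A01 t s V)
    (red_surjective K V A0) (redHom_ker0_isNilpotent K A01 t s V)
    (red_surjective K V A1) (redHom_ker1_isNilpotent K A01 t s V) ξ hξ
  refine ⟨proj K V A01 (Multiplicative.toAdd a : RingHom.ker (redHom K A01 t s V).ψ01), ?_⟩
  rw [← ha]
  unfold expV
  congr 1
  apply Subtype.ext
  exact (mem_ker_red_iff K V A01 _).mp (Multiplicative.toAdd a).2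

/-- The kernel of the exponential map: `V ⊗ A1 - V ⊗ A0`. -/
theorem expV_eq_one_iff (w : V ⊗[K] A01) :
    expV K A01 t s V w = 1 ↔
      ∃ (w0 : V ⊗[K] A0) (w1 : V ⊗[K] A1),
        w = LinearMap.lTensor V (IsScalarTower.toAlgHom K A1 A01).toLinearMap w1 -
          LinearMap.lTensor V (IsScalarTower.toAlgHom K A0 A01).toLinearMap w0 := by
  unfold expV
  rw [expClass_eq_one_iff (redHom K A01 t s V) (redHom_ker_sq K A01 t s V)
    (redHom_ker0_isNilpotent K A01 t s V) (redHom_ker1_isNilpotent K A01 t s V)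
    (redHom_unitsLift K A01 t s V)]
  constructor
  · rintro ⟨x0, -, x1, -, h⟩
    refine ⟨proj K V A0 x0, proj K V A1 x1, ?_⟩
    have h' := congrArg (proj K V A01) h
    rw [proj_incl, map_sub, proj_algebraMap, proj_algebraMap] at h'
    exact h'
  · rintro ⟨w0, w1, h⟩
    refine ⟨incl K V A0 w0, red_incl K V A0 w0, incl K V A1 w1, red_incl K V A1 w1, ?_⟩
    show incl K V A01 w = _
    rw [algebraMap_incl, algebraMap_incl, h, map_sub]

/-! ### The quotient `V ⊗ A01 / (V ⊗ A0 + V ⊗ A1)` is `V^g` -/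

section Dim

variable {g : ℕ} (h : A01 →ₗ[K] (Fin g → K))

/-- The map `V ⊗ A01 → V^g` induced by `h : A01 → K^g`. -/
noncomputable def psi : V ⊗[K] A01 →ₗ[K] (Fin g → V) :=
  (TensorProduct.piScalarRight K K V (Fin g)).toLinearMap ∘ₗ LinearMap.lTensor V h

omit [Module Kᵐᵒᵖ V] [IsCentralScalar K V] in
theorem psi_tmul (v : V) (a : A01) : psi K A01 V h (v ⊗ₜ a) = fun i => h a i • v := by
  simp [psi]

omit [Module Kᵐᵒᵖ V] [IsCentralScalar K V] in
theorem psi_surjective (hs : Function.Surjective h) : Function.Surjective (psi K A01 V h) :=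
  (TensorProduct.piScalarRight K K V (Fin g)).surjective.comp (LinearMap.lTensor_surjective V hs)

variable {V} in
omit [Module Kᵐᵒᵖ V] [IsCentralScalar K V] in
/-- `psi` is natural in `V`. -/
theorem psi_rTensor {V' : Type u} [AddCommGroup V'] [Module K V'] (l : V →ₗ[K] V')
    (w : V ⊗[K] A01) :
    psi K A01 V' h (LinearMap.rTensor A01 l w) = l ∘ psi K A01 V h w := by
  induction w using TensorProduct.induction_on with
  | zero =>
    funext i
    simp
  | tmul v a =>
    funext i
    simp [psi_tmul]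
  | add x y hx hy =>
    funext i
    simp only [map_add, hx, hy, Pi.add_apply, Function.comp_apply]

omit [Module Kᵐᵒᵖ V] [IsCentralScalar K V] in
/-- The kernel of `psi`. -/
theorem psi_eq_zero_iff (hs : Function.Surjective h)
    (hker : LinearMap.ker h =
      LinearMap.range (IsScalarTower.toAlgHom K A0 A01).toLinearMap ⊔
        LinearMap.range (IsScalarTower.toAlgHom K A1 A01).toLinearMap) (w : V ⊗[K] A01) :
    psi K A01 V h w = 0 ↔
      ∃ (w0 : V ⊗[K] A0) (w1 : V ⊗[K] A1),
        w = LinearMap.lTensor V (IsScalarTower.toAlgHom K A1 A01).toLinearMap w1 -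
          LinearMap.lTensor V (IsScalarTower.toAlgHom K A0 A01).toLinearMap w0 := by
  set a0 := (IsScalarTower.toAlgHom K A0 A01).toLinearMap with ha0
  set a1 := (IsScalarTower.toAlgHom K A1 A01).toLinearMap with ha1
  have hz0 : h ∘ₗ a0 = 0 := by
    apply LinearMap.ext
    intro x
    have : a0 x ∈ LinearMap.ker h := by
      rw [hker]
      exact Submodule.mem_sup_left ⟨x, rfl⟩
    exact this
  have hz1 : h ∘ₗ a1 = 0 := by
    apply LinearMap.ext
    intro x
    have : a1 x ∈ LinearMap.ker h := by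
      rw [hker]
      exact Submodule.mem_sup_right ⟨x, rfl⟩
    exact this
  have hpsi : psi K A01 V h w = 0 ↔ LinearMap.lTensor V h w = 0 := by
    unfold psi
    rw [LinearMap.comp_apply]
    exact (TensorProduct.piScalarRight K K V (Fin g)).map_eq_zero_iff
  rw [hpsi]
  constructor
  · intro hw
    have hex : Function.Exact (a0.coprod a1) h := by
      rw [LinearMap.exact_iff, hker, LinearMap.range_coprod]
    have hex' := lTensor_exact V hex hs
    obtain ⟨z, hz⟩ := (hex' w).mp hw
    have key : ∀ z : V ⊗[K] (A0 × A1), ∃ (w0 : V ⊗[K] A0) (w1 : V ⊗[K] A1),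
        LinearMap.lTensor V (a0.coprod a1) z =
          LinearMap.lTensor V a1 w1 - LinearMap.lTensor V a0 w0 := by
      intro z
      induction z using TensorProduct.induction_on with
      | zero => exact ⟨0, 0, by simp⟩
      | tmul v x =>
        refine ⟨-(v ⊗ₜ x.1), v ⊗ₜ x.2, ?_⟩
        simp only [LinearMap.lTensor_tmul, LinearMap.coprod_apply, map_neg, sub_neg_eq_add,
          TensorProduct.tmul_add]
        abel
      | add x y hx hy =>
        obtain ⟨x0, x1, hx⟩ := hx
        obtain ⟨y0, y1, hy⟩ := hy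
        refine ⟨x0 + y0, x1 + y1, ?_⟩
        simp only [map_add, hx, hy]
        abel
    obtain ⟨w0, w1, hw01⟩ := key z
    exact ⟨w0, w1, by rw [← hz, hw01]⟩
  · rintro ⟨w0, w1, rfl⟩
    rw [map_sub, ← LinearMap.lTensor_comp_apply, ← LinearMap.lTensor_comp_apply, hz0, hz1]
    simp

end Dim

/-! ### Naturality of the exponential in `V` -/

section NaturalV

variable {V} {V' : Type u} [AddCommGroup V'] [Module K V'] [Module Kᵐᵒᵖ V'] [IsCentralScalar K V']
  (l : V →ₗ[K] V')

theorem red_map_map (z : TrivSqZeroExt K V ⊗[K] A01) :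
    red K V' A01 (Algebra.TensorProduct.map (TrivSqZeroExt.map l) (AlgHom.id K A01) z) =
      red K V A01 z := by
  induction z using TensorProduct.induction_on with
  | zero => simp
  | tmul b a => simp
  | add x y hx hy => simp only [map_add, hx, hy]

/-- The exponential map is natural in `V`. -/
theorem bc_map_expV (w : V ⊗[K] A01) :
    bc (TrivSqZeroExt.map l) (expV K A01 t s V w) =
      expV K A01 t s V' (LinearMap.rTensor A01 l w) := by
  rw [bc_eq_baseChangeClass]
  unfold expV
  rw [baseChangeClass_expClass (redHom K A01 t s V) (redHom_ker_sq K A01 t s V)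
    (redHom K A01 t s V') (redHom_ker_sq K A01 t s V') (familyHom (TrivSqZeroExt.map l) t s)
    (red_map_map K A01 l)]
  congr 2
  apply Subtype.ext
  exact map_map_incl K l w

theorem fstHom_comp_inlAlgHom :
    (fstHom K K V).comp (inlAlgHom K K V) = AlgHom.id K K :=
  AlgHom.ext fun _ => rfl

theorem map_comp_inlAlgHom :
    (TrivSqZeroExt.map l).comp (inlAlgHom K K V) = inlAlgHom K K V' :=
  AlgHom.ext fun x => TrivSqZeroExt.map_inl l x

end NaturalV

/-! ### The fibres of the reduction `Cl (K ⊕ V) → Cl K` -/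

section Fibre

variable (ξ0 : Cl K A0 A1 A01 t s K)

/-- The fibre of the reduction `Cl (K ⊕ V) → Cl K` over `ξ0`: the tangent vectors of the Picard
functor at `ξ0` with values in `V`. -/
def Fibre : Type (u + 1) :=
  {ξ : Cl K A0 A1 A01 t s (TrivSqZeroExt K V) // bc (fstHom K K V) ξ = ξ0}

variable {V} in
/-- Functoriality of the fibre in `V`. -/
noncomputable def Fibre.map {V' : Type u} [AddCommGroup V'] [Module K V'] [Module Kᵐᵒᵖ V']
    [IsCentralScalar K V'] (l : V →ₗ[K] V') (ξ : Fibre K A01 t s V ξ0) :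
    Fibre K A01 t s V' ξ0 :=
  ⟨bc (TrivSqZeroExt.map l) ξ.1, by
    rw [bc_bc, fstHom_comp_map]
    exact ξ.2⟩

/-- The tangent vector attached to `w : V ⊗ A01`. -/
noncomputable def Fibre.ofTensor (w : V ⊗[K] A01) : Fibre K A01 t s V ξ0 :=
  ⟨expV K A01 t s V w * bc (inlAlgHom K K V) ξ0, by
    rw [map_mul, bc_expV, one_mul, bc_bc, fstHom_comp_inlAlgHom, bc_id_apply]⟩

theorem Fibre.exists_ofTensor_eq (ξ : Fibre K A01 t s V ξ0) :
    ∃ w, Fibre.ofTensor K A01 t s V ξ0 w = ξ := by
  obtain ⟨w, hw⟩ := exists_expV_eq K A01 t s V (ξ.1 * (bc (inlAlgHom K K V) ξ0)⁻¹) (by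
    rw [map_mul, map_inv, bc_bc, fstHom_comp_inlAlgHom, bc_id_apply, ξ.2, mul_inv_cancel])
  refine ⟨w, Subtype.ext ?_⟩
  show expV K A01 t s V w * bc (inlAlgHom K K V) ξ0 = ξ.1
  rw [hw, inv_mul_cancel_right]

variable {V} in
theorem Fibre.map_ofTensor {V' : Type u} [AddCommGroup V'] [Module K V'] [Module Kᵐᵒᵖ V']
    [IsCentralScalar K V'] (l : V →ₗ[K] V') (w : V ⊗[K] A01) :
    Fibre.map K A01 t s ξ0 l (Fibre.ofTensor K A01 t s V ξ0 w) =
      Fibre.ofTensor K A01 t s V' ξ0 (LinearMap.rTensor A01 l w) := by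
  apply Subtype.ext
  show bc (TrivSqZeroExt.map l) (expV K A01 t s V w * bc (inlAlgHom K K V) ξ0) =
    expV K A01 t s V' (LinearMap.rTensor A01 l w) * bc (inlAlgHom K K V') ξ0
  rw [map_mul, bc_map_expV, bc_bc, map_comp_inlAlgHom]

variable {g : ℕ} (h : A01 →ₗ[K] (Fin g → K)) (hs : Function.Surjective h)
  (hker : LinearMap.ker h =
    LinearMap.range (IsScalarTower.toAlgHom K A0 A01).toLinearMap ⊔
      LinearMap.range (IsScalarTower.toAlgHom K A1 A01).toLinearMap)

include hs hker in
theorem expV_eq_iff (w w' : V ⊗[K] A01) :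
    expV K A01 t s V w = expV K A01 t s V w' ↔ psi K A01 V h w = psi K A01 V h w' := by
  rw [← mul_inv_eq_one, ← expV_neg, ← expV_add, expV_eq_one_iff, ← sub_eq_add_neg,
    ← psi_eq_zero_iff K A01 V h hs hker, map_sub, sub_eq_zero]

include hs hker in
theorem Fibre.ofTensor_eq_iff (w w' : V ⊗[K] A01) :
    Fibre.ofTensor K A01 t s V ξ0 w = Fibre.ofTensor K A01 t s V ξ0 w' ↔
      psi K A01 V h w = psi K A01 V h w' := by
  rw [← expV_eq_iff K A01 t s V h hs hker]
  constructor
  · intro e
    have e' := congrArg Subtype.val e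
    exact mul_right_cancel e'
  · intro e
    apply Subtype.ext
    show expV K A01 t s V w * _ = expV K A01 t s V w' * _
    rw [e]

/-- The tangent vector, as an element of `V^g`. -/
noncomputable def Fibre.coord (ξ : Fibre K A01 t s V ξ0) : Fin g → V :=
  psi K A01 V h (Fibre.exists_ofTensor_eq K A01 t s V ξ0 ξ).choose

include hs hker in
theorem Fibre.coord_ofTensor (w : V ⊗[K] A01) :
    Fibre.coord K A01 t s V ξ0 h (Fibre.ofTensor K A01 t s V ξ0 w) = psi K A01 V h w :=
  (Fibre.ofTensor_eq_iff K A01 t s V ξ0 h hs hker _ _).mp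
    (Fibre.exists_ofTensor_eq K A01 t s V ξ0 (Fibre.ofTensor K A01 t s V ξ0 w)).choose_spec

include hs hker in
theorem Fibre.coord_bijective : Function.Bijective (Fibre.coord K A01 t s V ξ0 h) := by
  constructor
  · intro ξ ξ' e
    obtain ⟨w, rfl⟩ := Fibre.exists_ofTensor_eq K A01 t s V ξ0 ξ
    obtain ⟨w', rfl⟩ := Fibre.exists_ofTensor_eq K A01 t s V ξ0 ξ'
    rw [Fibre.coord_ofTensor K A01 t s V ξ0 h hs hker,
      Fibre.coord_ofTensor K A01 t s V ξ0 h hs hker] at e
    exact (Fibre.ofTensor_eq_iff K A01 t s V ξ0 h hs hker w w').mpr e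
  · intro u
    obtain ⟨w, rfl⟩ := psi_surjective K A01 V h hs u
    exact ⟨Fibre.ofTensor K A01 t s V ξ0 w, Fibre.coord_ofTensor K A01 t s V ξ0 h hs hker w⟩

/-- **The tangent space of the Picard functor** at `ξ0`, with values in `V`, is `V^g`. -/
noncomputable def fibreEquiv : Fibre K A01 t s V ξ0 ≃ (Fin g → V) :=
  Equiv.ofBijective _ (Fibre.coord_bijective K A01 t s V ξ0 h hs hker)

variable {V} in
/-- `fibreEquiv` is natural in `V`. -/
theorem fibreEquiv_map {V' : Type u} [AddCommGroup V'] [Module K V'] [Module Kᵐᵒᵖ V']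
    [IsCentralScalar K V'] (l : V →ₗ[K] V') (ξ : Fibre K A01 t s V ξ0) :
    fibreEquiv K A01 t s V' ξ0 h hs hker (Fibre.map K A01 t s ξ0 l ξ) =
      l ∘ fibreEquiv K A01 t s V ξ0 h hs hker ξ := by
  obtain ⟨w, rfl⟩ := Fibre.exists_ofTensor_eq K A01 t s V ξ0 ξ
  show Fibre.coord K A01 t s V' ξ0 h _ = l ∘ Fibre.coord K A01 t s V ξ0 h _
  rw [Fibre.map_ofTensor, Fibre.coord_ofTensor K A01 t s V' ξ0 h hs hker,
    Fibre.coord_ofTensor K A01 t s V ξ0 h hs hker, psi_rTensor]

end Fibre

/-! ### Rigidity and degree zero are automatic on the fibres -/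

section Auto

variable (e : A01 →ₐ[K] K)

instance isLocalHom_fstHom : IsLocalHom (fstHom K K V).toRingHom :=
  ⟨fun _ hx => TrivSqZeroExt.isUnit_iff_isUnit_fst.mpr hx⟩

/-- `K ⊕ V` is a local ring. -/
instance isLocalRing_tsze : IsLocalRing (TrivSqZeroExt K V) :=
  RingHom.domain_isLocalRing (fstHom K K V).toRingHom

variable {A01} in
/-- Over a local ring every class is rigid. -/
theorem isRigidCl_of_isLocalRing (B : Type u) [CommRing B] [Algebra K B] [IsLocalRing B]
    (ξ : Cl K A0 A1 A01 t s B) : IsRigidCl e B ξ := by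
  let _ := rigAlgebra B e
  show ξ ∈ rigidSubgroup (t := (1 : B) ⊗ₜ[K] t) (s := (1 : B) ⊗ₜ[K] s) B
  rw [rigidSubgroup, MonoidHom.mem_ker]
  exact Subsingleton.elim _ _

/-- A `K`-algebra map from `K ⊕ V` to a reduced ring factors through `K`. -/
theorem algHom_eq_comp_fstHom {L : Type u} [CommRing L] [IsReduced L] [Algebra K L]
    (ψ : TrivSqZeroExt K V →ₐ[K] L) :
    ψ = (ψ.comp (inlAlgHom K K V)).comp (fstHom K K V) := by
  apply AlgHom.ext
  intro x
  have hx : x = inl x.fst + inr x.snd := (TrivSqZeroExt.inl_fst_add_inr_snd_eq x).symm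
  have h0 : ψ (inr x.snd) = 0 := by
    have h2 : ψ (inr x.snd) ^ 2 = 0 := by
      rw [← map_pow, pow_two, TrivSqZeroExt.inr_mul_inr, map_zero]
    exact (pow_eq_zero_iff two_ne_zero).mp h2
  conv_lhs => rw [hx, map_add, h0, add_zero]
  rfl

/-- Degree zero can be checked on the reduction. -/
theorem isDegZero_of_fstHom (ξ : Cl K A0 A1 A01 t s (TrivSqZeroExt K V))
    (h : IsDegZero K (bc (fstHom K K V) ξ)) : IsDegZero (TrivSqZeroExt K V) ξ := by
  intro L _ _ _ ψ
  rw [algHom_eq_comp_fstHom K V ψ, ← bc_bc]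
  exact h L _

end Auto

end Family

end Fermat.Agent.JAC.Tangent.ConstTangent70
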