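/-
Programme JAC (S27 track, C4), chapter Tangent.  Owner: helper70.

**Relative dimension from tangent spaces.**  Let `K` be an algebraically closed field and `S` a
smooth `K`-algebra.  For a `K`-point `y : S →ₐ[K] K` and a `K`-module `V`, the *tangent vectors at
`y` with values in `V`* are the `K`-algebra maps `S → K ⊕ V` (trivial square-zero extension)
lifting `y`.  If, for every `K`-point `y`, this functor of `V` is naturally in bijection with
`V ↦ Fin g → V`, then `S` is locally standard smooth of relative dimension `g` over `K`.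

The consumer only supplies *natural bijections*: linearity is automatic (Yoneda).
-/
import Mathlib

set_option autoImplicit false

universe u

namespace Fermat.Agent.JAC.Tangent.TangentDim70

open TrivSqZeroExt

/-! ### A Yoneda lemma for the functors `V ↦ Fin n → V` -/

section Yoneda

variable {K : Type u} [Field K]

/-- The linear map `K^n → V` with prescribed values on the standard basis. -/
noncomputable def ofTuple {n : ℕ} {V : Type u} [AddCommGroup V] [Module K V] (v : Fin n → V) :
    (Fin n → K) →ₗ[K] V :=
  (Pi.basisFun K (Fin n)).constr K v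

theorem ofTuple_single {n : ℕ} {V : Type u} [AddCommGroup V] [Module K V] (v : Fin n → V)
    (i : Fin n) : ofTuple v (Pi.single i (1 : K)) = v i := by
  have := (Pi.basisFun K (Fin n)).constr_basis K v i
  simp [ofTuple]

theorem ofTuple_comp_single {n : ℕ} {V : Type u} [AddCommGroup V] [Module K V] (v : Fin n → V) :
    (ofTuple v ∘ fun i => Pi.single i (1 : K)) = v :=
  funext fun i => ofTuple_single v i

/-- A natural family of bijections `V^n ≃ V^g` (natural in the `K`-module `V`) forces `n = g`. -/
theorem eq_of_natural_equiv {n g : ℕ}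
    (θ : ∀ (V : Type u) [AddCommGroup V] [Module K V] [Module Kᵐᵒᵖ V] [IsCentralScalar K V],
      (Fin n → V) ≃ (Fin g → V))
    (nat : ∀ (V V' : Type u) [AddCommGroup V] [Module K V] [Module Kᵐᵒᵖ V] [IsCentralScalar K V]
      [AddCommGroup V'] [Module K V'] [Module Kᵐᵒᵖ V'] [IsCentralScalar K V']
      (l : V →ₗ[K] V') (v : Fin n → V), θ V' (l ∘ v) = l ∘ θ V v) : n = g := by
  -- the universal tuple
  let e : Fin n → (Fin n → K) := fun i => Pi.single i 1
  let u : Fin g → (Fin n → K) := θ (Fin n → K) e
  have key : ∀ v : Fin n → K, θ K v = ofTuple v ∘ u := by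
    intro v
    have := nat (Fin n → K) K (ofTuple v) e
    rwa [ofTuple_comp_single] at this
  -- hence `θ K` is linear
  let L : (Fin n → K) →ₗ[K] (Fin g → K) :=
    { toFun := fun v => θ K v
      map_add' := fun v w => by
        rw [key, key, key]
        funext j
        simp [ofTuple]
      map_smul' := fun a v => by
        rw [key, key]
        funext j
        simp [ofTuple] }
  have hL : Function.Bijective L := (θ K).bijective
  have := (LinearEquiv.ofBijective L hL).finrank_eq
  simpa using this

end Yoneda

/-! ### Tangent vectors of an algebra at a `K`-point -/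

section Lifts

variable {K : Type u} [Field K] {S : Type u} [CommRing S] [Algebra K S]

/-- Tangent vectors at `y` with values in `V`: algebra maps `S → K ⊕ V` lifting `y`. -/
def Lifts (y : S →ₐ[K] K) (V : Type u) [AddCommGroup V] [Module K V] [Module Kᵐᵒᵖ V]
    [IsCentralScalar K V] : Type u :=
  {φ : S →ₐ[K] TrivSqZeroExt K V // (fstHom K K V).comp φ = y}

variable {y : S →ₐ[K] K} {V V' : Type u} [AddCommGroup V] [Module K V] [Module Kᵐᵒᵖ V]
  [IsCentralScalar K V] [AddCommGroup V'] [Module K V'] [Module Kᵐᵒᵖ V'] [IsCentralScalar K V']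

theorem Lifts.fst_apply (φ : Lifts y V) (x : S) : (φ.1 x).fst = y x :=
  congrArg (fun ψ : S →ₐ[K] K => ψ x) φ.2

/-- Functoriality of tangent vectors in the coefficient module. -/
def Lifts.map (l : V →ₗ[K] V') (φ : Lifts y V) : Lifts y V' :=
  ⟨(TrivSqZeroExt.map l).comp φ.1, by
    rw [← AlgHom.comp_assoc, fstHom_comp_map, φ.2]⟩

@[simp]
theorem Lifts.map_snd (l : V →ₗ[K] V') (φ : Lifts y V) (x : S) :
    ((Lifts.map l φ).1 x).snd = l (φ.1 x).snd := by
  simp [Lifts.map]

theorem Lifts.ext {φ ψ : Lifts y V} (h : ∀ x, (φ.1 x).snd = (ψ.1 x).snd) : φ = ψ := by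
  apply Subtype.ext
  apply AlgHom.ext
  intro x
  apply TrivSqZeroExt.ext
  · rw [φ.fst_apply, ψ.fst_apply]
  · exact h x

end Lifts

/-! ### Tangent vectors are derivations -/

section Via

variable {K : Type u} [Field K] {S : Type u} [CommRing S] [Algebra K S]

/-- The `K`-module `V`, regarded as an `S`-module through the `K`-point `y`. -/
def Via (_y : S →ₐ[K] K) (V : Type u) : Type u := V

variable (y : S →ₐ[K] K) (V : Type u) [AddCommGroup V] [Module K V]

instance : AddCommGroup (Via y V) := inferInstanceAs (AddCommGroup V)

instance : Module K (Via y V) := inferInstanceAs (Module K V)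

instance : Module S (Via y V) := Module.compHom V (y : S →+* K)

/-- The identity, as a `K`-linear equivalence `Via y V ≃ V`. -/
def Via.out : Via y V ≃ₗ[K] V := LinearEquiv.refl K V

variable {y V}

theorem Via.out_smul (a : S) (v : Via y V) : Via.out y V (a • v) = y a • Via.out y V v := rfl

instance : IsScalarTower K S (Via y V) where
  smul_assoc k a v := by
    apply (Via.out y V).injective
    rw [Via.out_smul, map_smul, map_smul, Via.out_smul, smul_eq_mul, mul_smul]

/-- Functoriality of `Via y V` in `V`: a `K`-linear map is `S`-linear. -/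
def Via.map (y : S →ₐ[K] K) {V V' : Type u} [AddCommGroup V] [Module K V] [AddCommGroup V']
    [Module K V'] (l : V →ₗ[K] V') : Via y V →ₗ[S] Via y V' where
  toFun v := (Via.out y V').symm (l (Via.out y V v))
  map_add' a b := by rw [map_add, map_add, map_add]
  map_smul' a v := by
    apply (Via.out y V').injective
    simp only [RingHom.id_apply, LinearEquiv.apply_symm_apply, Via.out_smul, map_smul]

@[simp]
theorem Via.out_map {V' : Type u} [AddCommGroup V'] [Module K V'] (l : V →ₗ[K] V')
    (v : Via y V) : Via.out y V' (Via.map y l v) = l (Via.out y V v) := rfl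

theorem liftKaehlerDifferential_compDer {V' : Type u} [AddCommGroup V'] [Module K V']
    (l : V →ₗ[K] V') (d : Derivation K S (Via y V)) :
    ((Via.map y l).compDer d).liftKaehlerDifferential =
      (Via.map y l) ∘ₗ d.liftKaehlerDifferential := by
  apply Derivation.liftKaehlerDifferential_unique
  rw [Derivation.liftKaehlerDifferential_comp]
  ext x
  simp

end Via

section Deriv

variable {K : Type u} [Field K] {S : Type u} [CommRing S] [Algebra K S]
  {y : S →ₐ[K] K} {V V' : Type u} [AddCommGroup V] [Module K V] [Module Kᵐᵒᵖ V]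
  [IsCentralScalar K V] [AddCommGroup V'] [Module K V'] [Module Kᵐᵒᵖ V'] [IsCentralScalar K V']

/-- The derivation attached to a tangent vector. -/
def derivOfLift (φ : Lifts y V) : Derivation K S (Via y V) where
  toFun x := (Via.out y V).symm (φ.1 x).snd
  map_add' a b := by rw [map_add, snd_add, map_add]
  map_smul' k a := by rw [map_smul, snd_smul, map_smul]; rfl
  map_one_eq_zero' := by
    change (Via.out y V).symm (φ.1 1).snd = 0
    rw [map_one, snd_one, map_zero]
  leibniz' a b := by
    apply (Via.out y V).injective
    change (φ.1 (a * b)).snd = Via.out y V (a • (Via.out y V).symm (φ.1 b).snd +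
      b • (Via.out y V).symm (φ.1 a).snd)
    rw [map_add, Via.out_smul, Via.out_smul, LinearEquiv.apply_symm_apply,
      LinearEquiv.apply_symm_apply, map_mul, snd_mul, φ.fst_apply, φ.fst_apply, op_smul_eq_smul]

@[simp]
theorem out_derivOfLift_apply (φ : Lifts y V) (x : S) :
    Via.out y V (derivOfLift φ x) = (φ.1 x).snd := rfl

/-- The tangent vector attached to a derivation. -/
def liftOfDeriv (d : Derivation K S (Via y V)) : Lifts y V :=
  ⟨{ toFun := fun x => inl (y x) + inr (Via.out y V (d x))
     map_one' := by simp
     map_mul' := fun a b => by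
       apply TrivSqZeroExt.ext
       · simp
       · have := congrArg (Via.out y V) (d.leibniz a b)
         rw [map_add, Via.out_smul, Via.out_smul] at this
         simp only [snd_add, snd_inl, snd_inr, zero_add, snd_mul, fst_add, fst_inl, fst_inr,
           add_zero, op_smul_eq_smul]
         exact this
     map_zero' := by simp
     map_add' := fun a b => by
       apply TrivSqZeroExt.ext
       · simp
       · simp
     commutes' := fun k => by
       apply TrivSqZeroExt.ext
       · simp [algebraMap_eq_inl]
       · simp [algebraMap_eq_inl] }, by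
    ext x
    simp⟩

@[simp]
theorem liftOfDeriv_snd (d : Derivation K S (Via y V)) (x : S) :
    ((liftOfDeriv d).1 x).snd = Via.out y V (d x) := by
  simp [liftOfDeriv]

theorem liftOfDeriv_derivOfLift (φ : Lifts y V) : liftOfDeriv (derivOfLift φ) = φ :=
  Lifts.ext fun x => by simp

theorem derivOfLift_liftOfDeriv (d : Derivation K S (Via y V)) :
    derivOfLift (liftOfDeriv d) = d :=
  Derivation.ext fun x => (Via.out y V).injective (by simp)

theorem derivOfLift_map (l : V →ₗ[K] V') (φ : Lifts y V) :
    derivOfLift (Lifts.map l φ) = (Via.map y l).compDer (derivOfLift φ) :=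
  Derivation.ext fun x => (Via.out y V').injective (by simp)

end Deriv

section Basis

variable {K : Type u} [Field K] {S : Type u} [CommRing S] [Algebra K S] {n : ℕ}
  (b : Module.Basis (Fin n) S Ω[S⁄K]) (y : S →ₐ[K] K)
  (V V' : Type u) [AddCommGroup V] [Module K V] [Module Kᵐᵒᵖ V]
  [IsCentralScalar K V] [AddCommGroup V'] [Module K V'] [Module Kᵐᵒᵖ V'] [IsCentralScalar K V']

/-- If `Ω[S⁄K]` is free with basis `b` indexed by `Fin n`, tangent vectors at `y` with values in
`V` are `n`-tuples of elements of `V`. -/
noncomputable def tangentEquiv : Lifts y V ≃ (Fin n → V) where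
  toFun φ i := Via.out y V ((derivOfLift φ).liftKaehlerDifferential (b i))
  invFun v := liftOfDeriv
    ((b.constr S (fun i => (Via.out y V).symm (v i))).compDer (KaehlerDifferential.D K S))
  left_inv φ := by
    have h : b.constr S (fun i => (Via.out y V).symm
        (Via.out y V ((derivOfLift φ).liftKaehlerDifferential (b i)))) =
        (derivOfLift φ).liftKaehlerDifferential := by
      apply b.ext
      intro i
      rw [Module.Basis.constr_basis, LinearEquiv.symm_apply_apply]
    simp only [h]
    rw [Derivation.liftKaehlerDifferential_comp, liftOfDeriv_derivOfLift]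
  right_inv v := by
    funext i
    simp only
    rw [derivOfLift_liftOfDeriv]
    have h : ((b.constr S (fun i => (Via.out y V).symm (v i))).compDer
        (KaehlerDifferential.D K S)).liftKaehlerDifferential =
        b.constr S (fun i => (Via.out y V).symm (v i)) :=
      Derivation.liftKaehlerDifferential_unique _ _ (Derivation.liftKaehlerDifferential_comp _)
    rw [h, Module.Basis.constr_basis, LinearEquiv.apply_symm_apply]

variable {V V'}

theorem tangentEquiv_natural (l : V →ₗ[K] V') (φ : Lifts y V) :
    tangentEquiv b y V' (Lifts.map l φ) = l ∘ tangentEquiv b y V φ := by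
  funext i
  change Via.out y V' ((derivOfLift (Lifts.map l φ)).liftKaehlerDifferential (b i)) =
    l (Via.out y V ((derivOfLift φ).liftKaehlerDifferential (b i)))
  rw [derivOfLift_map, liftKaehlerDifferential_compDer]
  rfl

end Basis

/-! ### Tangent data and the rank of the differentials -/

section TangentDim

variable {K : Type u} [Field K] {S : Type u} [CommRing S] [Algebra K S]

/-- The tangent functor at the `K`-point `y` is naturally isomorphic to `V ↦ V^g`. -/
def HasTangentDim (y : S →ₐ[K] K) (g : ℕ) : Prop :=
  ∃ η : ∀ (V : Type u) [AddCommGroup V] [Module K V] [Module Kᵐᵒᵖ V] [IsCentralScalar K V],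
      Lifts y V ≃ (Fin g → V),
    ∀ (V V' : Type u) [AddCommGroup V] [Module K V] [Module Kᵐᵒᵖ V] [IsCentralScalar K V]
      [AddCommGroup V'] [Module K V'] [Module Kᵐᵒᵖ V'] [IsCentralScalar K V']
      (l : V →ₗ[K] V') (φ : Lifts y V), η V' (Lifts.map l φ) = l ∘ η V φ

/-- If `Ω[S⁄K]` is free of finite rank, this rank is the dimension of the tangent functor at any
`K`-point. -/
theorem finrank_kaehlerDifferential_eq [Module.Free S Ω[S⁄K]] [Module.Finite S Ω[S⁄K]]
    (y : S →ₐ[K] K) {g : ℕ} (h : HasTangentDim y g) : Module.finrank S Ω[S⁄K] = g := by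
  have : Nontrivial S := y.toRingHom.domain_nontrivial
  obtain ⟨η, hη⟩ := h
  let b := Module.finBasis S Ω[S⁄K]
  refine eq_of_natural_equiv (K := K)
    (fun V _ _ _ _ => (tangentEquiv b y V).symm.trans (η V)) ?_
  intro V V' _ _ _ _ _ _ _ _ l v
  change η V' ((tangentEquiv b y V').symm (l ∘ v)) = l ∘ η V ((tangentEquiv b y V).symm v)
  rw [← hη V V' l]
  congr 1
  apply (tangentEquiv b y V').injective
  rw [Equiv.apply_symm_apply, tangentEquiv_natural, Equiv.apply_symm_apply]

/-- A standard smooth algebra whose tangent functor at one `K`-point has dimension `g` is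
standard smooth of relative dimension `g`. -/
theorem isStandardSmoothOfRelativeDimension_of_hasTangentDim [Algebra.IsStandardSmooth K S]
    (y : S →ₐ[K] K) {g : ℕ} (h : HasTangentDim y g) :
    Algebra.IsStandardSmoothOfRelativeDimension g K S := by
  have : Nontrivial S := y.toRingHom.domain_nontrivial
  rw [Algebra.IsStandardSmoothOfRelativeDimension.iff_of_isStandardSmooth]
  rw [← Module.finrank_eq_rank, finrank_kaehlerDifferential_eq y h]

end TangentDim

/-! ### Localisation -/

section Loc

variable {K : Type u} [Field K] {S S' : Type u} [CommRing S] [Algebra K S] [CommRing S']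
  [Algebra K S'] [Algebra S S'] [IsScalarTower K S S']
  (y' : S' →ₐ[K] K)
  {V V' : Type u} [AddCommGroup V] [Module K V] [Module Kᵐᵒᵖ V]
  [IsCentralScalar K V] [AddCommGroup V'] [Module K V'] [Module Kᵐᵒᵖ V'] [IsCentralScalar K V']

/-- Restriction of tangent vectors along an algebra map `S → S'`. -/
def Lifts.restrict (φ : Lifts y' V) : Lifts (y'.comp (IsScalarTower.toAlgHom K S S')) V :=
  ⟨φ.1.comp (IsScalarTower.toAlgHom K S S'), by rw [← AlgHom.comp_assoc, φ.2]⟩

theorem Lifts.restrict_map (l : V →ₗ[K] V') (φ : Lifts y' V) :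
    Lifts.restrict (S := S) y' (Lifts.map l φ) = Lifts.map l (Lifts.restrict y' φ) := rfl

theorem Lifts.restrict_bijective (M : Submonoid S) [IsLocalization M S'] :
    Function.Bijective (Lifts.restrict (S := S) (V := V) y') := by
  constructor
  · intro φ ψ h
    apply Subtype.ext
    have h1 : φ.1.toRingHom.comp (algebraMap S S') = ψ.1.toRingHom.comp (algebraMap S S') :=
      RingHom.ext fun x =>
        congrArg (fun χ : Lifts (y'.comp (IsScalarTower.toAlgHom K S S')) V => χ.1 x) h
    have h2 := IsLocalization.ringHom_ext M h1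
    exact AlgHom.ext fun x => congrArg (fun χ : S' →+* TrivSqZeroExt K V => χ x) h2
  · intro φ
    have hu : ∀ m : M, IsUnit (φ.1 m) := by
      intro m
      rw [TrivSqZeroExt.isUnit_iff_isUnit_fst, φ.fst_apply]
      exact (IsLocalization.map_units S' m).map y'
    let ψ : S' →ₐ[K] TrivSqZeroExt K V := IsLocalization.liftAlgHom (M := M) (f := φ.1) hu
    have hψ : ∀ x : S, ψ (algebraMap S S' x) = φ.1 x := fun x => IsLocalization.lift_eq _ x
    refine ⟨⟨ψ, ?_⟩, ?_⟩
    · have h1 : ((fstHom K K V).comp ψ).toRingHom.comp (algebraMap S S') =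
          y'.toRingHom.comp (algebraMap S S') := by
        ext x
        change ((ψ (algebraMap S S' x))).fst = y' (algebraMap S S' x)
        rw [hψ, φ.fst_apply]
        rfl
      have h2 := IsLocalization.ringHom_ext M h1
      exact AlgHom.ext fun x => congrArg (fun χ : S' →+* K => χ x) h2
    · apply Subtype.ext
      exact AlgHom.ext fun x => hψ x

variable {y'}

/-- Tangent data pass to localisations. -/
theorem HasTangentDim.of_isLocalization (M : Submonoid S) [IsLocalization M S'] {g : ℕ}
    (h : HasTangentDim (y'.comp (IsScalarTower.toAlgHom K S S')) g) : HasTangentDim y' g := by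
  obtain ⟨η, hη⟩ := h
  refine ⟨fun V _ _ _ _ =>
    (Equiv.ofBijective _ (Lifts.restrict_bijective (V := V) y' M)).trans (η V), ?_⟩
  intro V V' _ _ _ _ _ _ _ _ l φ
  change η V' (Lifts.restrict y' (Lifts.map l φ)) = l ∘ η V (Lifts.restrict y' φ)
  rw [Lifts.restrict_map, hη]

end Loc

/-! ### `K`-points of finitely generated algebras -/

section Points

variable (K : Type u) [Field K] [IsAlgClosed K] (S : Type u) [CommRing S] [Algebra K S]

/-- A nontrivial finitely generated algebra over an algebraically closed field has a `K`-point. -/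
theorem nonempty_algHom_of_finiteType [Algebra.FiniteType K S] [Nontrivial S] :
    Nonempty (S →ₐ[K] K) := by
  obtain ⟨m, hm⟩ := Ideal.exists_maximal S
  let _ : Field (S ⧸ m) := Ideal.Quotient.field m
  have : Algebra.FiniteType K (S ⧸ m) :=
    Algebra.FiniteType.of_surjective (Ideal.Quotient.mkₐ K m) Ideal.Quotient.mk_surjective
  have : Module.Finite K (S ⧸ m) := finite_of_finite_type_of_isJacobsonRing K (S ⧸ m)
  have : Algebra.IsIntegral K (S ⧸ m) := Algebra.IsIntegral.of_finite K (S ⧸ m)
  let e : K ≃ₐ[K] (S ⧸ m) :=
    AlgEquiv.ofBijective (Algebra.ofId K (S ⧸ m)) IsAlgClosed.algebraMap_bijective_of_isIntegral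
  exact ⟨(e.symm : (S ⧸ m) →ₐ[K] K).comp (Ideal.Quotient.mkₐ K m)⟩

end Points

/-! ### The main theorem, algebra form -/

section Main

variable {K : Type u} [Field K] [IsAlgClosed K] {S : Type u} [CommRing S] [Algebra K S]

/-- **Relative dimension from tangent spaces (algebra form).**  A smooth algebra over an
algebraically closed field all of whose `K`-points have tangent functor of dimension `g` is
locally standard smooth of relative dimension `g`. -/
theorem exists_span_eq_top_isStandardSmoothOfRelativeDimension [Algebra.Smooth K S] {g : ℕ}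
    (h : ∀ y : S →ₐ[K] K, HasTangentDim y g) :
    ∃ s : Set S, Ideal.span s = ⊤ ∧
      ∀ x ∈ s, Algebra.IsStandardSmoothOfRelativeDimension g K (Localization.Away x) := by
  choose f hf₁ hf₂ using fun p : PrimeSpectrum S =>
    Algebra.IsSmoothAt.exists_notMem_isStandardSmooth K p.asIdeal
  refine ⟨Set.range f, ?_, ?_⟩
  · by_contra hne
    obtain ⟨m, hm, hle⟩ := Ideal.exists_le_maximal _ hne
    exact hf₁ ⟨m, hm.isPrime⟩ (hle (Ideal.subset_span ⟨_, rfl⟩))
  · rintro _ ⟨p, rfl⟩
    have := hf₂ p
    have hnt : Nontrivial (Localization.Away (f p)) := by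
      rw [← not_subsingleton_iff_nontrivial,
        IsLocalization.subsingleton_iff (M := Submonoid.powers (f p))]
      rintro ⟨n, hn⟩
      have hn' : f p ^ n = 0 := hn
      exact hf₁ p (p.isPrime.mem_of_pow_mem n (by rw [hn']; exact p.asIdeal.zero_mem))
    obtain ⟨y'⟩ := nonempty_algHom_of_finiteType K (Localization.Away (f p))
    exact isStandardSmoothOfRelativeDimension_of_hasTangentDim y'
      (HasTangentDim.of_isLocalization (Submonoid.powers (f p)) (h _))

end Main

end Fermat.Agent.JAC.Tangent.TangentDim70
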