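/-
Programme JAC (S27 track, C4), chapter Tangent.  Owner: helper70.

**Relative dimension from tangent spaces, scheme form.**  Let `K` be an algebraically closed field
and `f : X ⟶ Spec K` smooth.  If for every `K`-point `x` of `X` the functor of tangent vectors
`V ↦ {v : Spec (K ⊕ V) ⟶ X over Spec K, restricting to x}` is naturally in bijection with
`V ↦ Fin g → V`, then `f` is smooth of relative dimension `g`.
-/
import Mathlib
import Fermat.Agent.JAC.Tangent.TangentDim70

set_option autoImplicit false

universe u

open CategoryTheory Limits AlgebraicGeometry CommRingCat TrivSqZeroExt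

namespace Fermat.Agent.JAC.Tangent.TangentScheme70

open Fermat.Agent.JAC.Tangent.TangentDim70

section OnePoint

variable (K : Type u) [Field K] (V : Type u) [AddCommGroup V] [Module K V] [Module Kᵐᵒᵖ V]
  [IsCentralScalar K V]

/-- Every prime of `K ⊕ V` is the kernel of the projection to `K`. -/
theorem asIdeal_eq_ker (p : PrimeSpectrum (TrivSqZeroExt K V)) :
    p.asIdeal = RingHom.ker (fstHom K K V).toRingHom := by
  ext x
  rw [RingHom.mem_ker]
  constructor
  · intro hx
    by_contra hne
    have hu : IsUnit x := by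
      rw [TrivSqZeroExt.isUnit_iff_isUnit_fst]
      exact isUnit_iff_ne_zero.mpr hne
    exact p.isPrime.ne_top (Ideal.eq_top_of_isUnit_mem _ hx hu)
  · intro hx
    have hx' : x.fst = 0 := hx
    have hsq : x * x = 0 := by
      apply TrivSqZeroExt.ext
      · simp [hx']
      · simp [hx']
    have : x * x ∈ p.asIdeal := by rw [hsq]; exact p.asIdeal.zero_mem
    rcases p.isPrime.mem_or_mem this with h | h <;> exact h

/-- The closed point `Spec K ⟶ Spec (K ⊕ V)` is surjective. -/
theorem specMap_fst_surjective :
    Function.Surjective (Spec.map (CommRingCat.ofHom (fstHom K K V).toRingHom)).base := by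
  intro p
  let q : PrimeSpectrum K := ⟨⊥, Ideal.isPrime_bot⟩
  refine ⟨q, ?_⟩
  apply PrimeSpectrum.ext
  rw [asIdeal_eq_ker K V p]
  change Ideal.comap (fstHom K K V).toRingHom ⊥ = _
  rfl

end OnePoint

section SchemeLifts

variable {K : Type u} [Field K] {X : Scheme.{u}} (f : X ⟶ Spec (.of K))
  (x : Spec (.of K) ⟶ X)

/-- Tangent vectors of `X` at the `K`-point `x` with values in `V`. -/
def SchemeLifts (V : Type u) [AddCommGroup V] [Module K V] [Module Kᵐᵒᵖ V]
    [IsCentralScalar K V] : Type u :=
  {v : Spec (.of (TrivSqZeroExt K V)) ⟶ X //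
    Spec.map (CommRingCat.ofHom (fstHom K K V).toRingHom) ≫ v = x ∧
      v ≫ f = Spec.map (CommRingCat.ofHom (algebraMap K (TrivSqZeroExt K V)))}

variable {f x} {V V' : Type u} [AddCommGroup V] [Module K V] [Module Kᵐᵒᵖ V]
  [IsCentralScalar K V] [AddCommGroup V'] [Module K V'] [Module Kᵐᵒᵖ V'] [IsCentralScalar K V']

theorem ofHom_map_comp_fst (l : V →ₗ[K] V') :
    CommRingCat.ofHom (TrivSqZeroExt.map l).toRingHom ≫
        CommRingCat.ofHom (fstHom K K V').toRingHom =
      CommRingCat.ofHom (fstHom K K V).toRingHom := by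
  rw [← CommRingCat.ofHom_comp]
  congr 1
  exact RingHom.ext fun a => fst_map l a

theorem ofHom_algebraMap_comp_map (l : V →ₗ[K] V') :
    CommRingCat.ofHom (algebraMap K (TrivSqZeroExt K V)) ≫
        CommRingCat.ofHom (TrivSqZeroExt.map l).toRingHom =
      CommRingCat.ofHom (algebraMap K (TrivSqZeroExt K V')) := by
  rw [← CommRingCat.ofHom_comp]
  congr 1
  exact RingHom.ext fun a => (TrivSqZeroExt.map l).commutes a

/-- Functoriality of tangent vectors in the coefficient module. -/
noncomputable def SchemeLifts.map (l : V →ₗ[K] V') (v : SchemeLifts f x V) : SchemeLifts f x V' :=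
  ⟨Spec.map (CommRingCat.ofHom (TrivSqZeroExt.map l).toRingHom) ≫ v.1, by
    constructor
    · rw [← Category.assoc, ← Spec.map_comp, ofHom_map_comp_fst]
      exact v.2.1
    · rw [Category.assoc, v.2.2, ← Spec.map_comp, ofHom_algebraMap_comp_map]⟩

variable (f x) in
/-- The tangent functor of `X` at `x` is naturally isomorphic to `V ↦ V^g`. -/
def HasSchemeTangentDim (g : ℕ) : Prop :=
  ∃ η : ∀ (V : Type u) [AddCommGroup V] [Module K V] [Module Kᵐᵒᵖ V] [IsCentralScalar K V],
      SchemeLifts f x V ≃ (Fin g → V),
    ∀ (V V' : Type u) [AddCommGroup V] [Module K V] [Module Kᵐᵒᵖ V] [IsCentralScalar K V]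
      [AddCommGroup V'] [Module K V'] [Module Kᵐᵒᵖ V'] [IsCentralScalar K V']
      (l : V →ₗ[K] V') (v : SchemeLifts f x V), η V' (SchemeLifts.map l v) = l ∘ η V v

end SchemeLifts

/-! ### Comparison with an affine chart -/

section Chart

variable {K : Type u} [Field K] {X : Scheme.{u}} (f : X ⟶ Spec (.of K))
  {A : Type u} [CommRing A] [Algebra K A] (j : Spec (.of A) ⟶ X)
  (hj : j ≫ f = Spec.map (CommRingCat.ofHom (algebraMap K A))) (y : A →ₐ[K] K)
  {V V' : Type u} [AddCommGroup V] [Module K V] [Module Kᵐᵒᵖ V]
  [IsCentralScalar K V] [AddCommGroup V'] [Module K V'] [Module Kᵐᵒᵖ V'] [IsCentralScalar K V']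

/-- The `K`-point of `X` attached to a `K`-point of the chart. -/
noncomputable def chartPoint : Spec (.of K) ⟶ X :=
  Spec.map (CommRingCat.ofHom y.toRingHom) ≫ j

include hj in
theorem chartPoint_comp : chartPoint j y ≫ f = 𝟙 _ := by
  rw [chartPoint, Category.assoc, hj, ← Spec.map_comp, ← CommRingCat.ofHom_comp]
  have : y.toRingHom.comp (algebraMap K A) = RingHom.id K :=
    RingHom.ext fun a => by simp
  rw [this]
  exact Spec.map_id _

/-- Tangent vectors of the chart give tangent vectors of `X`. -/
noncomputable def chartLifts (ψ : Lifts y V) : SchemeLifts f (chartPoint j y) V :=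
  ⟨Spec.map (CommRingCat.ofHom ψ.1.toRingHom) ≫ j, by
    constructor
    · rw [chartPoint, ← Category.assoc, ← Spec.map_comp, ← CommRingCat.ofHom_comp]
      congr 3
      exact RingHom.ext fun a => ψ.fst_apply a
    · rw [Category.assoc, hj, ← Spec.map_comp, ← CommRingCat.ofHom_comp]
      congr 2
      exact RingHom.ext fun a => ψ.1.commutes a⟩

theorem chartLifts_map (l : V →ₗ[K] V') (ψ : Lifts y V) :
    chartLifts f j hj y (Lifts.map l ψ) = SchemeLifts.map l (chartLifts f j hj y ψ) := by
  apply Subtype.ext
  change Spec.map (CommRingCat.ofHom ((TrivSqZeroExt.map l).comp ψ.1).toRingHom) ≫ j =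
    Spec.map (CommRingCat.ofHom (TrivSqZeroExt.map l).toRingHom) ≫
      Spec.map (CommRingCat.ofHom ψ.1.toRingHom) ≫ j
  rw [← Category.assoc, ← Spec.map_comp, ← CommRingCat.ofHom_comp]
  rfl

theorem chartLifts_bijective [IsOpenImmersion j] :
    Function.Bijective (chartLifts (V := V) f j hj y) := by
  constructor
  · intro ψ ψ' h
    have h1 : Spec.map (CommRingCat.ofHom ψ.1.toRingHom) ≫ j =
        Spec.map (CommRingCat.ofHom ψ'.1.toRingHom) ≫ j := congrArg Subtype.val h
    have hmono : Mono j := inferInstance
    rw [cancel_mono] at h1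
    have h2 := Spec.map_injective h1
    apply Subtype.ext
    apply AlgHom.ext
    intro a
    exact congrArg (fun χ : CommRingCat.of A ⟶ CommRingCat.of (TrivSqZeroExt K V) => χ.hom a) h2
  · intro v
    -- the tangent vector stays inside the chart
    have hrange : Set.range v.1.base ⊆ Set.range j.base := by
      rintro _ ⟨p, rfl⟩
      obtain ⟨q, rfl⟩ := specMap_fst_surjective K V p
      have h1 := v.2.1
      have : v.1.base ((Spec.map (CommRingCat.ofHom (fstHom K K V).toRingHom)).base q) =
          (chartPoint j y).base q :=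
        congrArg (fun w : Spec (.of K) ⟶ X => w.base q) h1
      rw [this]
      exact ⟨(Spec.map (CommRingCat.ofHom y.toRingHom)).base q, rfl⟩
    let v' : Spec (.of (TrivSqZeroExt K V)) ⟶ Spec (.of A) := IsOpenImmersion.lift j v.1 hrange
    have hv' : v' ≫ j = v.1 := IsOpenImmersion.lift_fac j v.1 hrange
    obtain ⟨ψ0, hψ0⟩ := Spec.map_surjective v'
    have hmono : Mono j := inferInstance
    -- `ψ0` is a `K`-algebra map
    have hK : CommRingCat.ofHom (algebraMap K A) ≫ ψ0 =
        CommRingCat.ofHom (algebraMap K (TrivSqZeroExt K V)) := by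
      apply Spec.map_injective
      rw [Spec.map_comp, hψ0, ← hj, ← Category.assoc, hv', v.2.2]
    -- lifting `y`
    have hy : ψ0 ≫ CommRingCat.ofHom (fstHom K K V).toRingHom =
        CommRingCat.ofHom y.toRingHom := by
      apply Spec.map_injective
      rw [Spec.map_comp, hψ0, ← cancel_mono j, Category.assoc, hv', v.2.1]
      rfl
    let ψ : A →ₐ[K] TrivSqZeroExt K V :=
      { ψ0.hom with
        commutes' := fun a => congrArg
          (fun χ : CommRingCat.of K ⟶ CommRingCat.of (TrivSqZeroExt K V) => χ.hom a) hK }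
    refine ⟨⟨ψ, ?_⟩, ?_⟩
    · apply AlgHom.ext
      intro a
      exact congrArg (fun χ : CommRingCat.of A ⟶ CommRingCat.of K => χ.hom a) hy
    · apply Subtype.ext
      change Spec.map (CommRingCat.ofHom ψ.toRingHom) ≫ j = v.1
      rw [← hv', ← hψ0]
      rfl

include hj in
/-- Tangent data of `X` at the point of a chart give tangent data of the chart ring. -/
theorem hasTangentDim_of_scheme [IsOpenImmersion j] {g : ℕ}
    (h : HasSchemeTangentDim f (chartPoint j y) g) : HasTangentDim y g := by
  obtain ⟨η, hη⟩ := h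
  refine ⟨fun V _ _ _ _ =>
    (Equiv.ofBijective _ (chartLifts_bijective (V := V) f j hj y)).trans (η V), ?_⟩
  intro V V' _ _ _ _ _ _ _ _ l φ
  change η V' (chartLifts f j hj y (Lifts.map l φ)) = l ∘ η V (chartLifts f j hj y φ)
  rw [chartLifts_map, hη]

end Chart

/-! ### The main theorem, scheme form -/

section Main

variable {K : Type u} [Field K] [IsAlgClosed K] {X : Scheme.{u}}

/-- The chart form: the ring map of an affine chart of `X` is locally standard smooth of relative
dimension `g`. -/
theorem locally_of_chart (f : X ⟶ Spec (.of K)) (g : ℕ)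
    (H : ∀ x : Spec (.of K) ⟶ X, x ≫ f = 𝟙 _ → HasSchemeTangentDim f x g)
    {A : Type u} [CommRing A] (j : Spec (.of A) ⟶ X) [IsOpenImmersion j]
    (φ : CommRingCat.of K ⟶ CommRingCat.of A) (hφ : Spec.map φ = j ≫ f) (hsm : φ.hom.Smooth) :
    RingHom.Locally (RingHom.IsStandardSmoothOfRelativeDimension g) φ.hom := by
  let _ : Algebra K A := φ.hom.toAlgebra
  have : Algebra.Smooth K A := hsm
  have hj : j ≫ f = Spec.map (CommRingCat.ofHom (algebraMap K A)) := hφ.symm
  obtain ⟨s, hs, h⟩ := exists_span_eq_top_isStandardSmoothOfRelativeDimension (K := K) (S := A)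
    (g := g) (fun y => hasTangentDim_of_scheme f j hj y (H _ (chartPoint_comp f j hj y)))
  refine ⟨s, hs, fun t ht => ?_⟩
  dsimp only
  have e : (algebraMap A (Localization.Away t)).comp φ.hom =
      algebraMap K (Localization.Away t) := by
    rw [IsScalarTower.algebraMap_eq K A (Localization.Away t)]
    rfl
  rw [e, RingHom.isStandardSmoothOfRelativeDimension_algebraMap]
  exact h t ht

set_option backward.isDefEq.respectTransparency false in
/-- **Relative dimension from tangent spaces (scheme form).**  A smooth scheme over an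
algebraically closed field `K` all of whose `K`-points have tangent functor of dimension `g` is
smooth of relative dimension `g`. -/
theorem smoothOfRelativeDimension_of_tangent (f : X ⟶ Spec (.of K)) [Smooth f] (g : ℕ)
    (H : ∀ x : Spec (.of K) ⟶ X, x ≫ f = 𝟙 _ → HasSchemeTangentDim f x g) :
    SmoothOfRelativeDimension g f := by
  rw [IsZariskiLocalAtSource.iff_of_openCover (P := @SmoothOfRelativeDimension g) X.affineCover]
  intro i
  obtain ⟨φ, hφ⟩ := Spec.map_surjective (X.affineCover.f i ≫ f)
  have hsm : Smooth (X.affineCover.f i ≫ f) := inferInstance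
  rw [← hφ, HasRingHomProperty.Spec_iff (P := @Smooth)] at hsm
  rw [← hφ, HasRingHomProperty.Spec_iff (P := @SmoothOfRelativeDimension g)]
  exact locally_of_chart f g H (X.affineCover.f i) φ hφ hsm

end Main

end Fermat.Agent.JAC.Tangent.TangentScheme70
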