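/-
Programme JAC (S27 track, C4), chapter Tangent.  Owner: helper70.

**The relative dimension of the Jacobian.**  Let `rep` be a representation of the absolute Picard
presheaf `G P` of a cut by a scheme `J`, let `M` be a model of the classes in the cut over affine
`k`-schemes (`Repr/RelModel10.RelModel`) and `E` an embedding of the model into the classes of line
diagrams of the two-chart curve `(A0, A1, A01; t, s)` with image the rigid classes of degree zero
(`Final/DictOfRelModel10.ClEmbedding`).  If `k` is algebraically closed, `J → Spec k` is smooth and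
`A01 / (A0 + A1) ≃ k^g`, then `J → Spec k` is smooth of relative dimension `g`.
-/
import Mathlib
import Fermat.Agent.JAC.Final.DictOfRelModel10
import Fermat.Agent.JAC.Tangent.TangentScheme70
import Fermat.Agent.JAC.Tangent.ConstTangent70

set_option autoImplicit false

universe w u

open CategoryTheory Limits Opposite AlgebraicGeometry AlgebraicGeometry.RelPicard NeronModelInfra
  GoodReductionJacobian TrivSqZeroExt

namespace Fermat.Agent.JAC.Tangent.JacTangent70

open scoped TensorProduct
open Fermat.Agent.JAC.Core.Defs36 Fermat.Agent.JAC.Core.AlgAtlas36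
  Fermat.Agent.JAC.Repr.Wiring10 Fermat.Agent.JAC.Repr.Lifting10
  Fermat.Agent.JAC.Repr.RelModel10 Fermat.Agent.JAC.Final.DictOfRelModel10
  Fermat.Agent.JAC.Grp.ConstBc33
  Fermat.Agent.JAC.Tangent.TangentScheme70 Fermat.Agent.JAC.Tangent.ConstTangent70

variable {k : Type u} [Field k] {A0 A1 A01 : Type u} [CommRing A0] [CommRing A1] [CommRing A01]
  [Algebra k A0] [Algebra k A1] [Algebra k A01] [Algebra A0 A01] [Algebra A1 A01]
  [IsScalarTower k A0 A01] [IsScalarTower k A1 A01] {t : A0} {s : A1}
  [IsLocalization.Away t A01] [IsLocalization.Away s A01]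
  {C : Scheme.{u}} {c : C ⟶ Spec (CommRingCat.of k)}
  {ε : SchemeHomOver (𝟙 (Spec (CommRingCat.of k))) c} {P : SubPicCondition c ε}
  [hsm : ∀ {T : Scheme.{u}} (t : T ⟶ Spec (CommRingCat.of k)), Small.{u} (CutClasses P t)]
  {J : Scheme.{u}} (rep : (G P).RepresentableBy J)
  (M : RelModel.{w} P) {e : A01 →ₐ[k] k} (E : ClEmbedding A0 A1 A01 t s e M)

/-! ### The class of line diagrams of an affine point of `J` -/

section ClOf

variable (B : Type u) [CommRing B] [Algebra k B]

/-- The class of line diagrams over `B` of a `B`-point of `J`. -/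
noncomputable def clOf (v : SchemeHomOver (specStr (R := k) B) (toBase rep)) :
    Cl k A0 A1 A01 t s B :=
  E.toCl B (M.θ B (overEquiv rep (specStr (R := k) B) v))

theorem clOf_injective : Function.Injective (clOf rep M E B) :=
  (E.inj B).comp ((M.θ B).injective.comp (overEquiv rep (specStr (R := k) B)).injective)

theorem clOf_rigid (v : SchemeHomOver (specStr (R := k) B) (toBase rep)) :
    IsRigidCl e B (clOf rep M E B v) :=
  E.rigid B _

theorem clOf_degZero (v : SchemeHomOver (specStr (R := k) B) (toBase rep)) :
    IsDegZero B (clOf rep M E B v) :=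
  E.degZero B _

theorem exists_clOf_eq (ξ : Cl k A0 A1 A01 t s B) (hr : IsRigidCl e B ξ) (hd : IsDegZero B ξ) :
    ∃ v, clOf rep M E B v = ξ := by
  obtain ⟨a, rfl⟩ := E.surj B ξ hr hd
  refine ⟨(overEquiv rep (specStr (R := k) B)).symm ((M.θ B).symm a), ?_⟩
  unfold clOf
  rw [Equiv.apply_symm_apply, Equiv.apply_symm_apply]

variable {B} {B' : Type u} [CommRing B'] [Algebra k B']

/-- `clOf` is natural in `B`. -/
theorem clOf_postComp (ψ : B →ₐ[k] B')
    (v : SchemeHomOver (specStr (R := k) B) (toBase rep)) :
    clOf rep M E B' (postComp v (specHom ψ)) = bc ψ (clOf rep M E B v) := by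
  unfold clOf
  rw [overEquiv_comp, M.θ_map, E.map]

end ClOf

/-! ### Tangent vectors of `J` -/

section Tangent

variable (x : Spec (CommRingCat.of k) ⟶ J) (hx : x ≫ toBase rep = 𝟙 _)

omit [Field k] in
theorem specStr_self {k : Type u} [CommRing k] :
    specStr (R := k) k = 𝟙 (Spec (CommRingCat.of k)) := by
  rw [specStr]
  exact Spec.map_id _

/-- A `k`-point of `J`, as a morphism over `Spec k`. -/
def ptOver : SchemeHomOver (specStr (R := k) k) (toBase rep) :=
  ⟨x, hx.trans specStr_self.symm⟩

variable (V : Type u) [AddCommGroup V] [Module k V] [Module kᵐᵒᵖ V] [IsCentralScalar k V]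

/-- A tangent vector of `J`, as a morphism over `Spec k`. -/
def liftOver (v : SchemeLifts (toBase rep) x V) :
    SchemeHomOver (specStr (R := k) (TrivSqZeroExt k V)) (toBase rep) :=
  ⟨v.1, v.2.2⟩

theorem postComp_liftOver (v : SchemeLifts (toBase rep) x V) :
    postComp (liftOver rep x V v) (specHom (fstHom k k V)) = ptOver rep x hx :=
  Subtype.ext v.2.1

/-- The tangent vector of the Picard functor attached to a tangent vector of `J`. -/
noncomputable def toFibre (v : SchemeLifts (toBase rep) x V) :
    Fibre k A01 t s V (clOf rep M E k (ptOver rep x hx)) :=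
  ⟨clOf rep M E _ (liftOver rep x V v), by
    rw [← clOf_postComp, postComp_liftOver rep x hx]⟩

theorem toFibre_bijective : Function.Bijective (toFibre rep M E x hx V) := by
  constructor
  · intro v v' h
    have h1 : clOf rep M E _ (liftOver rep x V v) = clOf rep M E _ (liftOver rep x V v') :=
      congrArg Subtype.val h
    have h2 := clOf_injective rep M E _ h1
    have h3 : (liftOver rep x V v).1 = (liftOver rep x V v').1 := congrArg Subtype.val h2
    exact Subtype.ext h3
  · intro ξ
    have hd : IsDegZero (TrivSqZeroExt k V) ξ.1 := by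
      apply isDegZero_of_fstHom
      rw [ξ.2]
      exact clOf_degZero rep M E k _
    obtain ⟨v, hv⟩ := exists_clOf_eq rep M E (TrivSqZeroExt k V) ξ.1
      (isRigidCl_of_isLocalRing k t s e _ ξ.1) hd
    have hv1 : postComp v (specHom (fstHom k k V)) = ptOver rep x hx := by
      apply clOf_injective rep M E k
      rw [clOf_postComp, hv, ξ.2]
    refine ⟨⟨v.1, congrArg Subtype.val hv1, v.2⟩, ?_⟩
    exact Subtype.ext hv

variable {V} in
theorem toFibre_map {V' : Type u} [AddCommGroup V'] [Module k V'] [Module kᵐᵒᵖ V']
    [IsCentralScalar k V'] (l : V →ₗ[k] V') (v : SchemeLifts (toBase rep) x V) :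
    toFibre rep M E x hx V' (SchemeLifts.map l v) =
      Fibre.map k A01 t s _ l (toFibre rep M E x hx V v) := by
  apply Subtype.ext
  show clOf rep M E _ (liftOver rep x V' (SchemeLifts.map l v)) =
    bc (TrivSqZeroExt.map l) (clOf rep M E _ (liftOver rep x V v))
  rw [← clOf_postComp]
  rfl

variable {g : ℕ} (h : A01 →ₗ[k] (Fin g → k)) (hs : Function.Surjective h)
  (hker : LinearMap.ker h =
    LinearMap.range (IsScalarTower.toAlgHom k A0 A01).toLinearMap ⊔
      LinearMap.range (IsScalarTower.toAlgHom k A1 A01).toLinearMap)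

include M E hx hs hker in
/-- The tangent functor of `J` at a `k`-point is `V ↦ V^g`. -/
theorem hasSchemeTangentDim : HasSchemeTangentDim (toBase rep) x g := by
  refine ⟨fun V _ _ _ _ => (Equiv.ofBijective _ (toFibre_bijective rep M E x hx V)).trans
    (fibreEquiv k A01 t s V _ h hs hker), ?_⟩
  intro V V' _ _ _ _ _ _ _ _ l v
  show fibreEquiv k A01 t s V' _ h hs hker (toFibre rep M E x hx V' (SchemeLifts.map l v)) =
    l ∘ fibreEquiv k A01 t s V _ h hs hker (toFibre rep M E x hx V v)
  rw [toFibre_map, fibreEquiv_map]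

end Tangent

/-! ### The main theorem -/

include M E in
/-- **The Jacobian has relative dimension `g = dim A01 / (A0 + A1)`.** -/
theorem smoothOfRelativeDimension_toBase [IsAlgClosed k] [Smooth (toBase rep)] {g : ℕ}
    (h : A01 →ₗ[k] (Fin g → k)) (hs : Function.Surjective h)
    (hker : LinearMap.ker h =
      LinearMap.range (IsScalarTower.toAlgHom k A0 A01).toLinearMap ⊔
        LinearMap.range (IsScalarTower.toAlgHom k A1 A01).toLinearMap) :
    SmoothOfRelativeDimension g (toBase rep) :=
  smoothOfRelativeDimension_of_tangent (toBase rep) g fun x hx =>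
    hasSchemeTangentDim rep M E x hx h hs hker

/-- A quotient of dimension `g` gives a surjection to `k^g` with the prescribed kernel. -/
theorem exists_linearMap_of_finrank {k : Type u} [Field k] {N : Type u} [AddCommGroup N]
    [Module k N] (S : Submodule k N) [Module.Finite k (N ⧸ S)] {g : ℕ}
    (hg : Module.finrank k (N ⧸ S) = g) :
    ∃ h : N →ₗ[k] (Fin g → k), Function.Surjective h ∧ LinearMap.ker h = S := by
  let b := Module.finBasisOfFinrankEq k (N ⧸ S) hg
  refine ⟨b.equivFun.toLinearMap ∘ₗ S.mkQ, ?_, ?_⟩
  · exact b.equivFun.surjective.comp S.mkQ_surjective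
  · rw [LinearEquiv.ker_comp, Submodule.ker_mkQ]

include M E in
/-- **The Jacobian has relative dimension `g = dim A01 / (A0 + A1)`**, dimension form. -/
theorem smoothOfRelativeDimension_toBase_of_finrank [IsAlgClosed k] [Smooth (toBase rep)] {g : ℕ}
    [Module.Finite k (A01 ⧸
      (LinearMap.range (IsScalarTower.toAlgHom k A0 A01).toLinearMap ⊔
        LinearMap.range (IsScalarTower.toAlgHom k A1 A01).toLinearMap))]
    (hg : Module.finrank k (A01 ⧸
      (LinearMap.range (IsScalarTower.toAlgHom k A0 A01).toLinearMap ⊔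
        LinearMap.range (IsScalarTower.toAlgHom k A1 A01).toLinearMap)) = g) :
    SmoothOfRelativeDimension g (toBase rep) := by
  obtain ⟨h, hs, hker⟩ := exists_linearMap_of_finrank _ hg
  exact smoothOfRelativeDimension_toBase rep M E h hs hker

end Fermat.Agent.JAC.Tangent.JacTangent70
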