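/-
Programme JAC (S27 track, C4), chapter Tangent.  Owner: helper70.

**The Jacobian of the S25 chain has relative dimension the adelic genus of the function field.**
For a scheme-level dictionary `S : SchemeDict36.SchemeDict A0 A1 A01 t s ε e d` and the model
`M := RelModel33.relModel hdeg S` of the degree-zero cut (`M.A B` = rigid classes of degree zero of
line diagrams over `B`), every scheme `J` representing the absolute Picard presheaf of the cut and
smooth over the algebraically closed field `k` of characteristic zero is smooth of relative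
dimension `genusFF k (FF k A01 k)`, where `FF k A01 k = Frac (k ⊗[k] A01)` is the function field
of the curve.
-/
import Mathlib
import Fermat.Agent.JAC.Tangent.JacTangent70
import Fermat.Agent.JAC.FF.GenusCurve70
import Fermat.Agent.JAC.Final.RelModel33

set_option autoImplicit false

universe u

open CategoryTheory Limits Opposite AlgebraicGeometry AlgebraicGeometry.RelPicard NeronModelInfra
  GoodReductionJacobian AlgebraicCurve Polynomial

namespace Fermat.Agent.JAC.Tangent.JacDim70

open scoped TensorProduct
open Fermat.Agent.JAC.Core.Defs36 Fermat.Agent.JAC.Core.AlgAtlas36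
  Fermat.Agent.JAC.Repr.Wiring10 Fermat.Agent.JAC.Repr.RelModel10
  Fermat.Agent.JAC.Final.DictOfRelModel10 Fermat.Agent.JAC.Final.SchemeDict36
  Fermat.Agent.JAC.Final.RelModel33 Fermat.Agent.JAC.AE0.DegZero35
  Fermat.Agent.JAC.Fibre.ConstExt37 Fermat.Agent.JAC.Tangent.JacTangent70
  Fermat.Agent.JAC.FF.GenusCurve70

variable {k : Type u} [Field k] {C : Scheme.{u}} {c : C ⟶ Spec (CommRingCat.of k)}
  {A0 A1 A01 : Type u} [CommRing A0] [CommRing A1] [CommRing A01]
  [Algebra k A0] [Algebra k A1] [Algebra k A01] [Algebra A0 A01] [Algebra A1 A01]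
  [IsScalarTower k A0 A01] [IsScalarTower k A1 A01] {t : A0} {s : A1}
  [IsLocalization.Away t A01] [IsLocalization.Away s A01]
  {ε : SchemeHomOver (𝟙 (Spec (CommRingCat.of k))) c} {e : A01 →ₐ[k] k} {d : FibreDegree c}

/-- The tautological embedding of the model `relModel hdeg S` (rigid classes of degree zero) into
the classes of line diagrams. -/
noncomputable def clEmbedding (hdeg : DegAdditive k A0 A1 A01 t s)
    (S : SchemeDict A0 A1 A01 t s ε e d) :
    ClEmbedding A0 A1 A01 t s e (relModel hdeg S) where
  toCl _ _ _ x := x.1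
  inj _ _ _ := Subtype.val_injective
  rigid _ _ _ x := x.2.1
  degZero _ _ _ x := x.2.2
  surj _ _ _ y hr hd := ⟨⟨y, hr, hd⟩, rfl⟩
  map _ _ _ _ _ _ _ _ := rfl

variable [hsm : ∀ {T : Scheme.{u}} (t' : T ⟶ Spec (CommRingCat.of k)),
    Small.{u} (CutClasses (Fermat.Agent.JAC.AE0.Transfer35.degZeroCut d ε) t')]
  {J : Scheme.{u}}
  (rep : (G (Fermat.Agent.JAC.AE0.Transfer35.degZeroCut d ε)).RepresentableBy J)

/-- **Relative dimension of the Jacobian of the chain**, from a presentation of
`A01 / (A0 + A1)`. -/
theorem smoothOfRelativeDimension_of_schemeDict [IsAlgClosed k]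
    (hdeg : DegAdditive k A0 A1 A01 t s) (S : SchemeDict A0 A1 A01 t s ε e d)
    [Smooth (toBase rep)] {g : ℕ} (h : A01 →ₗ[k] (Fin g → k)) (hs : Function.Surjective h)
    (hker : LinearMap.ker h =
      LinearMap.range (IsScalarTower.toAlgHom k A0 A01).toLinearMap ⊔
        LinearMap.range (IsScalarTower.toAlgHom k A1 A01).toLinearMap) :
    SmoothOfRelativeDimension g (toBase rep) :=
  smoothOfRelativeDimension_toBase rep (relModel hdeg S) (clEmbedding hdeg S) h hs hker

/-- **The Jacobian of the chain is smooth of relative dimension the adelic genus of the function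
field of the curve** (`k` algebraically closed of characteristic zero; `hts`, `ha0`, `ha1` and the
Dedekind hypotheses are the fields `hts`, `coords0`, `coords1`, `dedekind_i k` of
`Hilb/ChartDef24.CurveHyp`). -/
theorem smoothOfRelativeDimension_genusFF [IsAlgClosed k] [CharZero k]
    (hdeg : DegAdditive k A0 A1 A01 t s) (S : SchemeDict A0 A1 A01 t s ε e d)
    [Smooth (toBase rep)]
    [IsDedekindDomain (k ⊗[k] A0)] [IsDedekindDomain (k ⊗[k] A1)] [IsDedekindDomain (k ⊗[k] A01)]
    (hts : algebraMap A0 A01 t * algebraMap A1 A01 s = 1)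
    {n0 n1 : ℕ} {a0 : Fin n0 → A0} {a1 : Fin n1 → A1}
    (ha0 : Function.Bijective (fun p : Fin n0 → k[X] => ∑ j, aeval t (p j) * a0 j))
    (ha1 : Function.Bijective (fun p : Fin n1 → k[X] => ∑ j, aeval s (p j) * a1 j)) :
    SmoothOfRelativeDimension (genusFF k (FF k A01 k)) (toBase rep) := by
  obtain ⟨h, hs, hker⟩ := exists_curve_linearMap t s hts ha0 ha1
  exact smoothOfRelativeDimension_of_schemeDict rep hdeg S h hs hker

end Fermat.Agent.JAC.Tangent.JacDim70
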