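/-
Programme JAC, S27 track, work package C4b.  Owner: helper85.

THE TANGENT FUNCTOR OF A REPRESENTING SCHEME, FROM THE MODEL OF THE CLASSES.

Let `K` be a field, `J` a scheme representing the absolute Picard presheaf `Wiring10.G P` of a
cut `P`, and `M : RelModel P` a model of the classes in the cut over affine bases by commutative
groups `M.A B` (`Repr/RelModel10`; in the application `M.A B` is the group of rigid classes of
degree zero of line diagrams over `B`).  The tangent vectors of `J` at a `K`-point `x` with values
in `V`, i.e. the morphisms `Spec (K ⊕ V) ⟶ J` over `Spec K` restricting to `x`, are in natural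
bijection with the kernel of `M.A (K ⊕ V) → M.A K` (translate by the constant class of `x`).
Hence a natural identification of these kernels with `V ^ g` shows that `J` is smooth of
relative dimension `g` (through `Tangent/TangentScheme70`).

* `tangentKer M V`, `kerMap M l`: the kernels and their functoriality in `V`;
* `liftsEquivKer`: tangent vectors at `x` ≃ `tangentKer M V`, natural in `V` (`liftsEquivKer_map`);
* `hasSchemeTangentDim_of_relModel`, `smoothOfRelativeDimension_toBase`.
-/
import Mathlib
import Fermat.Agent.JAC.Repr.RelModelStd85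
import Fermat.Agent.JAC.Tangent.TangentScheme70

set_option autoImplicit false

universe w u

open CategoryTheory Limits Opposite AlgebraicGeometry AlgebraicGeometry.RelPicard NeronModelInfra
  GoodReductionJacobian TrivSqZeroExt

namespace Fermat.Agent.JAC.Tangent.TangentBridge85

open Fermat.Agent.JAC.Repr.Wiring10 Fermat.Agent.JAC.Repr.Lifting10
  Fermat.Agent.JAC.Repr.RelModel10 Fermat.Agent.JAC.Repr.RelModelStd85
  Fermat.Agent.JAC.Tangent.TangentScheme70

variable {K : Type u} [Field K] {C : Scheme.{u}} {c : C ⟶ Spec (CommRingCat.of K)}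
  {ε : SchemeHomOver (𝟙 (Spec (CommRingCat.of K))) c} {P : SubPicCondition c ε}
  (M : RelModel.{w} P)

/-! ### The kernels of restriction to the closed point -/

section Ker

variable (V : Type u) [AddCommGroup V] [Module K V] [Module Kᵐᵒᵖ V] [IsCentralScalar K V]

/-- The kernel of the restriction `M.A (K ⊕ V) → M.A K` to the closed point. -/
noncomputable abbrev tangentKer : Subgroup (M.A (TrivSqZeroExt K V)) :=
  (M.map (fstHom K K V)).ker

variable {V} {V' : Type u} [AddCommGroup V'] [Module K V'] [Module Kᵐᵒᵖ V']
  [IsCentralScalar K V']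

/-- Functoriality of the kernels in the coefficient module. -/
noncomputable def kerMap (l : V →ₗ[K] V') (a : tangentKer M V) : tangentKer M V' :=
  ⟨M.map (TrivSqZeroExt.map l) a.1, by
    rw [MonoidHom.mem_ker, ← map_comp_apply, fstHom_comp_map]
    exact a.2⟩

@[simp] lemma kerMap_val (l : V →ₗ[K] V') (a : tangentKer M V) :
    (kerMap M l a).1 = M.map (TrivSqZeroExt.map l) a.1 := rfl

end Ker

/-! ### Tangent vectors of the representing scheme -/

section Lifts

variable [hs : ∀ {T : Scheme.{u}} (t : T ⟶ Spec (CommRingCat.of K)), Small.{u} (CutClasses P t)]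
  {J : Scheme.{u}} (rep : (G P).RepresentableBy J)
  (x : Spec (CommRingCat.of K) ⟶ J) (hx : x ≫ toBase rep = 𝟙 _)

omit hs in
lemma specStr_self : specStr (R := K) K = 𝟙 (Spec (CommRingCat.of K)) := by
  unfold specStr
  rw [Algebra.algebraMap_self]
  exact Spec.map_id _

/-- A `K`-point of the representing scheme, over the standard base `Spec K ⟶ Spec K`. -/
def ptOver : SchemeHomOver (specStr (R := K) K) (toBase rep) :=
  ⟨x, hx.trans specStr_self.symm⟩

/-- The element of the model over `K` attached to a `K`-point. -/
noncomputable def aPt : M.A K := M.θ K (overEquiv rep (specStr (R := K) K) (ptOver rep x hx))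

variable (V : Type u) [AddCommGroup V] [Module K V] [Module Kᵐᵒᵖ V] [IsCentralScalar K V]

/-- The constant class of the point `x` over `K ⊕ V`. -/
noncomputable def constPt : M.A (TrivSqZeroExt K V) :=
  M.map (inlAlgHom K K V) (aPt M rep x hx)

lemma map_fst_constPt : M.map (fstHom K K V) (constPt M rep x hx V) = aPt M rep x hx :=
  map_map_of_comp_eq_id M (inlAlgHom K K V) (fstHom K K V) (AlgHom.ext fun _ => rfl) _

variable {V} {V' : Type u} [AddCommGroup V'] [Module K V'] [Module Kᵐᵒᵖ V']
  [IsCentralScalar K V']

lemma map_constPt (l : V →ₗ[K] V') :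
    M.map (TrivSqZeroExt.map l) (constPt M rep x hx V) = constPt M rep x hx V' := by
  unfold constPt
  rw [← map_comp_apply, map_comp_inlAlgHom]

variable (V) in
/-- Tangent vectors at `x`, as points over the standard base of `K ⊕ V` restricting to `x`. -/
def liftsEquivOver :
    SchemeLifts (toBase rep) x V ≃
      {w : SchemeHomOver (specStr (R := K) (TrivSqZeroExt K V)) (toBase rep) //
        postComp w (specHom (fstHom K K V)) = ptOver rep x hx} where
  toFun v := ⟨⟨v.1, v.2.2⟩, Subtype.ext v.2.1⟩
  invFun w := ⟨w.1.1, congrArg Subtype.val w.2, w.1.2⟩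
  left_inv _ := rfl
  right_inv _ := rfl

variable (V) in
/-- **Tangent vectors at `x` are the kernel of restriction to the closed point** in the model. -/
noncomputable def liftsEquivKer : SchemeLifts (toBase rep) x V ≃ tangentKer M V :=
  (liftsEquivOver rep x hx V).trans <|
    ((overEquiv rep (specStr (R := K) (TrivSqZeroExt K V))).subtypeEquiv
      (p := fun w => postComp w (specHom (fstHom K K V)) = ptOver rep x hx)
      (q := fun ξ => cutMap (specHom (fstHom K K V)) ξ =
        overEquiv rep (specStr (R := K) K) (ptOver rep x hx))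
      (fun w => by
        rw [← overEquiv_comp]
        exact ((overEquiv rep _).injective.eq_iff).symm)).trans <|
    ((M.θ (TrivSqZeroExt K V)).subtypeEquiv
      (p := fun ξ => cutMap (specHom (fstHom K K V)) ξ =
        overEquiv rep (specStr (R := K) K) (ptOver rep x hx))
      (q := fun a => M.map (fstHom K K V) a = aPt M rep x hx)
      (fun ξ => by
        rw [← M.θ_map]
        exact ((M.θ K).injective.eq_iff).symm)).trans <|
    (Equiv.mulRight (constPt M rep x hx V)⁻¹).subtypeEquiv
      (p := fun a => M.map (fstHom K K V) a = aPt M rep x hx)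
      (q := fun a => a ∈ tangentKer M V)
      (fun a => by
        change _ ↔ M.map (fstHom K K V) (a * (constPt M rep x hx V)⁻¹) = 1
        rw [map_mul, map_inv, map_fst_constPt, mul_inv_eq_one])

lemma liftsEquivKer_val (v : SchemeLifts (toBase rep) x V) :
    (liftsEquivKer M rep x hx V v).1 =
      M.θ (TrivSqZeroExt K V)
        (overEquiv rep (specStr (R := K) (TrivSqZeroExt K V)) ⟨v.1, v.2.2⟩) *
          (constPt M rep x hx V)⁻¹ := rfl

/-- Naturality of `liftsEquivKer` in the coefficient module. -/
theorem liftsEquivKer_map (l : V →ₗ[K] V') (v : SchemeLifts (toBase rep) x V) :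
    liftsEquivKer M rep x hx V' (SchemeLifts.map l v) =
      kerMap M l (liftsEquivKer M rep x hx V v) := by
  apply Subtype.ext
  rw [kerMap_val, liftsEquivKer_val, liftsEquivKer_val, map_mul, map_inv, map_constPt,
    ← M.θ_map, ← overEquiv_comp]
  rfl

include hx in
/-- **The tangent functor of the representing scheme has dimension `g`** as soon as the kernels
of restriction to the closed point in the model are naturally `V ^ g`. -/
theorem hasSchemeTangentDim_of_relModel (g : ℕ)
    (τ : ∀ (V : Type u) [AddCommGroup V] [Module K V] [Module Kᵐᵒᵖ V] [IsCentralScalar K V],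
      tangentKer M V ≃ (Fin g → V))
    (τ_nat : ∀ (V V' : Type u) [AddCommGroup V] [Module K V] [Module Kᵐᵒᵖ V]
      [IsCentralScalar K V] [AddCommGroup V'] [Module K V'] [Module Kᵐᵒᵖ V']
      [IsCentralScalar K V'] (l : V →ₗ[K] V') (a : tangentKer M V),
      τ V' (kerMap M l a) = l ∘ τ V a) :
    HasSchemeTangentDim (toBase rep) x g :=
  ⟨fun V _ _ _ _ => (liftsEquivKer M rep x hx V).trans (τ V), fun V V' _ _ _ _ _ _ _ _ l v => by
    change τ V' (liftsEquivKer M rep x hx V' (SchemeLifts.map l v)) = _
    rw [liftsEquivKer_map, τ_nat]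
    rfl⟩

end Lifts

/-- **Relative dimension of the representing scheme** from the tangent spaces of the model. -/
theorem smoothOfRelativeDimension_toBase [IsAlgClosed K]
    [hs : ∀ {T : Scheme.{u}} (t : T ⟶ Spec (CommRingCat.of K)), Small.{u} (CutClasses P t)]
    {J : Scheme.{u}} (rep : (G P).RepresentableBy J) [Smooth (toBase rep)] (g : ℕ)
    (τ : ∀ (V : Type u) [AddCommGroup V] [Module K V] [Module Kᵐᵒᵖ V] [IsCentralScalar K V],
      tangentKer M V ≃ (Fin g → V))
    (τ_nat : ∀ (V V' : Type u) [AddCommGroup V] [Module K V] [Module Kᵐᵒᵖ V]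
      [IsCentralScalar K V] [AddCommGroup V'] [Module K V'] [Module Kᵐᵒᵖ V']
      [IsCentralScalar K V'] (l : V →ₗ[K] V') (a : tangentKer M V),
      τ V' (kerMap M l a) = l ∘ τ V a) :
    SmoothOfRelativeDimension g (toBase rep) :=
  smoothOfRelativeDimension_of_tangent (toBase rep) g fun x hx =>
    hasSchemeTangentDim_of_relModel M rep x hx g τ τ_nat

end Fermat.Agent.JAC.Tangent.TangentBridge85
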